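import Fermat.Agent.F4.Recip.ArtinRay
import Fermat.Agent.F4.Recip.Basic

/-!
# F4/Recip: the Artin map of a Galois extension of odd prime degree

`M/F` Galois of odd prime degree `p`, unramified outside the finite nonempty set `T` of primes
of `F`.  We construct a map `A` from the ideals of `F` to `Gal(M/F)`, multiplicative on the
nonzero ideals, whose value at a prime `P` outside `T` is the Frobenius element of the primes of
`M` above `P`, and show (given `ArtinRay`): `A` kills the principal ideals `(a)`,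
`a ≡ 1 mod ∏_{v ∈ T} v ^ k` (`k` large), and the norms of the ideals of `M` prime to `T`.
-/

set_option autoImplicit false
set_option linter.unusedSectionVars false

open NumberField Polynomial IsDedekindDomain UniqueFactorizationMonoid
open scoped nonZeroDivisors IntermediateField Pointwise

namespace Fermat.Agent.F4Rec

open Fermat.Agent.S14 (InInertia)

/-- A function on the prime ideals of a Dedekind domain with values in a commutative group extends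
to a multiplicative function on the nonzero ideals. -/
theorem ac_exists_mul_extension {R : Type*} [CommRing R] [IsDedekindDomain R] {H : Type*}
    [CommGroup H] (f : Ideal R → H) :
    ∃ A : Ideal R → H, (∀ I J : Ideal R, I ≠ ⊥ → J ≠ ⊥ → A (I * J) = A I * A J) ∧
      (∀ P : Ideal R, P.IsPrime → P ≠ ⊥ → A P = f P) ∧ A ⊤ = 1 := by
  classical
  refine ⟨fun I => ((normalizedFactors I).map f).prod, ?_, ?_, ?_⟩
  · intro I J hI hJ
    show ((normalizedFactors (I * J)).map f).prod = _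
    rw [normalizedFactors_mul hI hJ, Multiset.map_add, Multiset.prod_add]
  · intro P hP hP0
    show ((normalizedFactors P).map f).prod = _
    have hirr : Irreducible P := (Ideal.prime_of_isPrime hP0 hP).irreducible
    rw [normalizedFactors_irreducible hirr, normalize_eq, Multiset.map_singleton,
      Multiset.prod_singleton]
  · show ((normalizedFactors (⊤ : Ideal R)).map f).prod = _
    rw [← Ideal.one_eq_top, normalizedFactors_one, Multiset.map_zero, Multiset.prod_zero]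

section frob

variable {F M : Type} [Field F] [NumberField F] [Field M] [NumberField M] [Algebra F M]
  [IsGalois F M]

theorem isFrobRel_iff_mem (τ : M ≃ₐ[F] M) (Q : Ideal (𝓞 M)) (n : ℕ) :
    IsFrobRel τ Q n ↔ ∀ x : 𝓞 M, τ • x - x ^ n ∈ Q := by
  constructor
  · intro h x
    obtain ⟨y, hy, hxy⟩ := h x
    have : τ • x - x ^ n = y := by
      apply RingOfIntegers.ext
      rw [← hxy]
      rfl
    rw [this]
    exact hy
  · intro h x
    exact ⟨_, h x, rfl⟩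

theorem inInertia_iff_mem (τ : M ≃ₐ[F] M) (Q : Ideal (𝓞 M)) :
    InInertia τ Q ↔ ∀ x : 𝓞 M, τ • x - x ∈ Q := by
  constructor
  · intro h x
    obtain ⟨y, hy, hxy⟩ := h x
    have : τ • x - x = y := by
      apply RingOfIntegers.ext
      rw [← hxy]
      rfl
    rw [this]
    exact hy
  · intro h x
    exact ⟨_, h x, rfl⟩

/-- Existence of a Frobenius element at a prime of `M`. -/
theorem ac_exists_frob (Q : Ideal (𝓞 M)) (hQ : Q.IsPrime) (hQ0 : Q ≠ ⊥) :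
    ∃ τ : M ≃ₐ[F] M, IsFrobRel τ Q (Ideal.absNorm (Q.under (𝓞 F))) := by
  have : Finite (𝓞 M ⧸ Q) := Ideal.finiteQuotientOfFreeOfNeBot Q hQ0
  obtain ⟨σ, hσ⟩ := IsArithFrobAt.exists_of_isInvariant (𝓞 F) (M ≃ₐ[F] M) Q
  refine ⟨σ, fun x => ?_⟩
  have h := hσ x
  have hcard : Nat.card (𝓞 F ⧸ Q.under (𝓞 F)) = Ideal.absNorm (Q.under (𝓞 F)) := by
    rw [Ideal.absNorm_apply, Submodule.cardQuot_apply]
  rw [hcard] at h
  exact ⟨_, h, rfl⟩

/-- Uniqueness of the Frobenius element at an unramified prime. -/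
theorem ac_frob_unique {Q : Ideal (𝓞 M)} {n : ℕ} {τ τ' : M ≃ₐ[F] M} (hU : UnramAt F Q)
    (h : IsFrobRel τ Q n) (h' : IsFrobRel τ' Q n) : τ = τ' := by
  rw [isFrobRel_iff_mem] at h h'
  have hin : InInertia (τ * τ'⁻¹) Q := by
    rw [inInertia_iff_mem]
    intro x
    have h1 := h (τ'⁻¹ • x)
    have h2 := h' (τ'⁻¹ • x)
    rw [smul_inv_smul] at h2
    have e : (τ * τ'⁻¹) • x - x = (τ • (τ'⁻¹ • x) - (τ'⁻¹ • x) ^ n) - (x - (τ'⁻¹ • x) ^ n) := by
      rw [mul_smul]; ring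
    rw [e]
    exact Q.sub_mem h1 h2
  exact mul_inv_eq_one.mp (hU _ hin)

/-- Powers of a Frobenius element. -/
theorem ac_frob_pow {Q : Ideal (𝓞 M)} {n : ℕ} {τ : M ≃ₐ[F] M} (h : IsFrobRel τ Q n) (j : ℕ) :
    IsFrobRel (τ ^ j) Q (n ^ j) := by
  rw [isFrobRel_iff_mem] at h ⊢
  induction j with
  | zero =>
    intro x
    simp
  | succ j ih =>
    intro x
    have h1 := ih (τ • x)
    have h2 := h x
    have h3 : (τ • x) ^ n ^ j - (x ^ n) ^ n ^ j ∈ Q :=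
      Ideal.mem_of_dvd _ (sub_dvd_pow_sub_pow _ _ _) h2
    have e : τ ^ (j + 1) • x - x ^ n ^ (j + 1) =
        (τ ^ j • (τ • x) - (τ • x) ^ n ^ j) + ((τ • x) ^ n ^ j - (x ^ n) ^ n ^ j) := by
      rw [pow_succ τ, mul_smul, pow_succ' n, pow_mul]; ring
    rw [e]
    exact Q.add_mem h1 h3

/-- Fermat's little theorem in the residue field of `Q`. -/
theorem ac_pow_absNorm_sub_mem (Q : Ideal (𝓞 M)) (hQ : Q.IsPrime) (hQ0 : Q ≠ ⊥) (x : 𝓞 M) :
    x ^ Ideal.absNorm Q - x ∈ Q := by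
  have hmax : Q.IsMaximal := hQ.isMaximal hQ0
  have : Finite (𝓞 M ⧸ Q) := Ideal.finiteQuotientOfFreeOfNeBot Q hQ0
  let _ : Field (𝓞 M ⧸ Q) := Ideal.Quotient.field Q
  let _ : Fintype (𝓞 M ⧸ Q) := Fintype.ofFinite _
  rw [← Ideal.Quotient.eq_zero_iff_mem, map_sub, map_pow, sub_eq_zero]
  have hc : Ideal.absNorm Q = Fintype.card (𝓞 M ⧸ Q) := by
    rw [Ideal.absNorm_apply, Submodule.cardQuot_apply, Nat.card_eq_fintype_card]
  rw [hc]
  exact FiniteField.pow_card _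

/-- A Frobenius element at `Q` commuting with `σ` is a Frobenius element at `σ Q`. -/
theorem ac_frob_smul {Q : Ideal (𝓞 M)} {n : ℕ} {τ : M ≃ₐ[F] M} (h : IsFrobRel τ Q n)
    (σ : M ≃ₐ[F] M) (hc : σ * τ = τ * σ) : IsFrobRel τ (σ • Q) n := by
  rw [isFrobRel_iff_mem] at h ⊢
  intro x
  have h1 := h (σ⁻¹ • x)
  rw [Ideal.mem_pointwise_smul_iff_inv_smul_mem]
  have e : σ⁻¹ • (τ • x - x ^ n) = τ • (σ⁻¹ • x) - (σ⁻¹ • x) ^ n := by
    have hc' : σ⁻¹ * τ = τ * σ⁻¹ := by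
      rw [inv_mul_eq_iff_eq_mul, ← mul_assoc, hc, mul_assoc, mul_inv_cancel, mul_one]
    rw [smul_sub, smul_pow', ← mul_smul, hc', mul_smul]
  rw [e]
  exact h1

/-- If `Gal(M/F)` is commutative, the primes of `M` above a prime `P` of `F` have a common
Frobenius element. -/
theorem ac_exists_frobP (hcomm : ∀ σ τ : M ≃ₐ[F] M, σ * τ = τ * σ) (P : Ideal (𝓞 F))
    (hP : P.IsPrime) (hP0 : P ≠ ⊥) :
    ∃ τ : M ≃ₐ[F] M, ∀ Q : Ideal (𝓞 M), Q.IsPrime → Q ≠ ⊥ → Q.under (𝓞 F) = P →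
      IsFrobRel τ Q (Ideal.absNorm P) := by
  have hPmax : P.IsMaximal := hP.isMaximal hP0
  obtain ⟨Q₀, hQ₀max, hQ₀over⟩ :=
    Ideal.exists_maximal_ideal_liesOver_of_isIntegral (S := 𝓞 M) P
  have hQ₀P : Q₀.under (𝓞 F) = P := hQ₀over.over.symm
  have hQ₀0 : Q₀ ≠ ⊥ := Ideal.ne_bot_of_liesOver_of_ne_bot hP0 Q₀
  obtain ⟨τ, hτ⟩ := ac_exists_frob (F := F) Q₀ hQ₀max.isPrime hQ₀0
  rw [hQ₀P] at hτ
  refine ⟨τ, fun Q hQ _ hQP => ?_⟩
  have : Q.LiesOver P := ⟨hQP.symm⟩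
  have := hQ₀max.isPrime
  obtain ⟨σ, hσ⟩ := Ideal.exists_smul_eq_of_isGaloisGroup P Q₀ Q (M ≃ₐ[F] M)
  rw [← hσ]
  exact ac_frob_smul hτ σ (hcomm σ τ)

/-- **The Artin map**: a multiplicative map on the nonzero ideals of `F` whose value at `Q ∩ F`
is a Frobenius element at `Q`, for every nonzero prime `Q` of `M`. -/
theorem ac_exists_artinMap (hcomm : ∀ σ τ : M ≃ₐ[F] M, σ * τ = τ * σ) :
    ∃ A : Ideal (𝓞 F) → (M ≃ₐ[F] M),
      (∀ I J : Ideal (𝓞 F), I ≠ ⊥ → J ≠ ⊥ → A (I * J) = A I * A J) ∧ A ⊤ = 1 ∧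
      ∀ Q : Ideal (𝓞 M), Q.IsPrime → Q ≠ ⊥ →
        IsFrobRel (A (Q.under (𝓞 F))) Q (Ideal.absNorm (Q.under (𝓞 F))) := by
  classical
  let _ : CommGroup (M ≃ₐ[F] M) :=
    { (inferInstance : Group (M ≃ₐ[F] M)) with mul_comm := hcomm }
  let f : Ideal (𝓞 F) → (M ≃ₐ[F] M) := fun P =>
    if h : P.IsPrime ∧ P ≠ ⊥ then (ac_exists_frobP hcomm P h.1 h.2).choose else 1
  obtain ⟨A, hmul, hprime, htop⟩ := ac_exists_mul_extension f
  refine ⟨A, hmul, htop, fun Q hQ hQ0 => ?_⟩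
  have hP : (Q.under (𝓞 F)).IsPrime := inferInstance
  have hP0 : Q.under (𝓞 F) ≠ ⊥ := Ideal.under_ne_bot (𝓞 F) hQ0
  rw [hprime _ hP hP0]
  have hf : f (Q.under (𝓞 F)) = (ac_exists_frobP hcomm (Q.under (𝓞 F)) hP hP0).choose :=
    dif_pos ⟨hP, hP0⟩
  rw [hf]
  exact (ac_exists_frobP hcomm (Q.under (𝓞 F)) hP hP0).choose_spec Q hQ hQ0 rfl

/-- Powers. -/
theorem ac_map_pow {A : Ideal (𝓞 F) → (M ≃ₐ[F] M)}
    (hmul : ∀ I J : Ideal (𝓞 F), I ≠ ⊥ → J ≠ ⊥ → A (I * J) = A I * A J) (htop : A ⊤ = 1)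
    {I : Ideal (𝓞 F)} (hI : I ≠ ⊥) (n : ℕ) : A (I ^ n) = A I ^ n := by
  induction n with
  | zero => rw [pow_zero, pow_zero, Ideal.one_eq_top, htop]
  | succ n ih => rw [pow_succ, hmul _ _ (pow_ne_zero n hI) hI, ih, pow_succ]

/-- The Artin map kills the norm of a prime of `M` at which `M/F` is unramified. -/
theorem ac_map_relNorm_prime {A : Ideal (𝓞 F) → (M ≃ₐ[F] M)}
    (hmul : ∀ I J : Ideal (𝓞 F), I ≠ ⊥ → J ≠ ⊥ → A (I * J) = A I * A J) (htop : A ⊤ = 1)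
    (hfrob : ∀ Q : Ideal (𝓞 M), Q.IsPrime → Q ≠ ⊥ →
      IsFrobRel (A (Q.under (𝓞 F))) Q (Ideal.absNorm (Q.under (𝓞 F))))
    (Q : Ideal (𝓞 M)) (hQ : Q.IsPrime) (hQ0 : Q ≠ ⊥) (hU : UnramAt F Q) :
    A (Ideal.relNorm (𝓞 F) Q) = 1 := by
  have hP : (Q.under (𝓞 F)).IsPrime := inferInstance
  have hP0 : Q.under (𝓞 F) ≠ ⊥ := Ideal.under_ne_bot (𝓞 F) hQ0
  obtain ⟨s, hs⟩ := Ideal.exists_relNorm_eq_pow_of_isPrime Q (Q.under (𝓞 F))
  have h1 : Ideal.absNorm Q = Ideal.absNorm (Q.under (𝓞 F)) ^ s := by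
    rw [← Ideal.absNorm_relNorm (R := 𝓞 F), hs, map_pow]
  rw [hs, ac_map_pow hmul htop hP0]
  apply hU
  have h2 := ac_frob_pow (hfrob Q hQ hQ0) s
  rw [← h1, isFrobRel_iff_mem] at h2
  rw [inInertia_iff_mem]
  intro x
  have e : A (Q.under (𝓞 F)) ^ s • x - x =
      (A (Q.under (𝓞 F)) ^ s • x - x ^ Ideal.absNorm Q) + (x ^ Ideal.absNorm Q - x) := by ring
  rw [e]
  exact Q.add_mem (h2 x) (ac_pow_absNorm_sub_mem Q hQ hQ0 x)

/-- The Artin map kills the norms of the ideals of `M` all of whose prime divisors are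
unramified over `F`. -/
theorem ac_map_relNorm {A : Ideal (𝓞 F) → (M ≃ₐ[F] M)}
    (hmul : ∀ I J : Ideal (𝓞 F), I ≠ ⊥ → J ≠ ⊥ → A (I * J) = A I * A J) (htop : A ⊤ = 1)
    (hfrob : ∀ Q : Ideal (𝓞 M), Q.IsPrime → Q ≠ ⊥ →
      IsFrobRel (A (Q.under (𝓞 F))) Q (Ideal.absNorm (Q.under (𝓞 F))))
    (𝔄 : Ideal (𝓞 M)) (h𝔄 : 𝔄 ≠ ⊥)
    (hU : ∀ Q : Ideal (𝓞 M), Q.IsPrime → Q ≠ ⊥ → 𝔄 ≤ Q → UnramAt F Q) :
    A (Ideal.relNorm (𝓞 F) 𝔄) = 1 := by
  induction 𝔄 using UniqueFactorizationMonoid.induction_on_prime with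
  | h₁ => exact absurd rfl h𝔄
  | h₂ J hJu =>
    have hJ : J = ⊤ := by
      rw [← Ideal.one_eq_top]
      exact isUnit_iff_eq_one.mp hJu
    rw [hJ, Ideal.relNorm_top, htop]
  | h₃ J Q hJ0 hQ ih =>
    have hQp : Q.IsPrime := Ideal.isPrime_of_prime hQ
    have hQ0 : Q ≠ ⊥ := hQ.ne_zero
    have h1 : A (Ideal.relNorm (𝓞 F) Q) = 1 :=
      ac_map_relNorm_prime hmul htop hfrob Q hQp hQ0 (hU Q hQp hQ0 Ideal.mul_le_left)
    have h2 : A (Ideal.relNorm (𝓞 F) J) = 1 :=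
      ih hJ0 (fun Q' hQ' hQ'0 hle => hU Q' hQ' hQ'0 (le_trans Ideal.mul_le_right hle))
    rw [map_mul, hmul _ _ (by rw [Ne, Ideal.relNorm_eq_bot_iff]; exact hQ0)
      (by rw [Ne, Ideal.relNorm_eq_bot_iff]; exact hJ0), h1, h2, mul_one]

end frob

section main

variable {F : Type} [Field F] [NumberField F]

/-- The moduli `∏_{v ∈ T} v ^ k` decrease with `k`. -/
theorem modT_anti (T : Finset (HeightOneSpectrum (𝓞 F))) {k k' : ℕ} (h : k ≤ k') :
    modT T k' ≤ modT T k := by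
  obtain ⟨j, rfl⟩ := Nat.exists_eq_add_of_le h
  have : modT T (k + j) = modT T k * modT T j := by
    unfold modT
    rw [← Finset.prod_mul_distrib]
    exact Finset.prod_congr rfl fun v _ => pow_add _ _ _
  rw [this]
  exact Ideal.mul_le_left

/-- Being prime to `∏_{v ∈ T} v ^ k` does not depend on `k ≥ 1`. -/
theorem sup_modT_eq_top_iff (T : Finset (HeightOneSpectrum (𝓞 F))) {k : ℕ} (hk : 1 ≤ k)
    (I : Ideal (𝓞 F)) : I ⊔ modT T k = ⊤ ↔ I ⊔ modT T 1 = ⊤ := by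
  have e : modT T k = modT T 1 ^ k := by
    unfold modT
    rw [← Finset.prod_pow]
    exact Finset.prod_congr rfl fun v _ => by rw [pow_one]
  constructor
  · intro h
    exact top_le_iff.mp (h ▸ sup_le_sup_left (modT_anti T hk) I)
  · intro h
    rw [e, ← Ideal.isCoprime_iff_sup_eq] at *
    exact h.pow_right

end main

/-- **The Artin map** of a Galois extension `M/F` of odd prime degree, unramified outside `T`:
a map `A` on the ideals of `F` with values in `Gal(M/F)`, multiplicative on the nonzero ideals,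
with `A (Q ∩ F)` a Frobenius element at `Q` for every prime `Q` of `M`, killing the principal
ideals `(a)` with `a ≡ 1 mod ∏_{v ∈ T} v ^ k` (`k ≥ k₀`) and the norms of the ideals of `M` prime
to `T`. -/
def ArtinMapExists : Prop :=
  ∀ (p : ℕ) (F M : Type) [Field F] [NumberField F] [Field M] [NumberField M] [Algebra F M]
    [IsGalois F M] (T : Finset (HeightOneSpectrum (𝓞 F))),
    p.Prime → p ≠ 2 → Module.finrank F M = p → T.Nonempty → UnramOutside F M T →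
    ∃ (A : Ideal (𝓞 F) → (M ≃ₐ[F] M)) (k₀ : ℕ), 1 ≤ k₀ ∧
      (∀ I J : Ideal (𝓞 F), I ≠ ⊥ → J ≠ ⊥ → A (I * J) = A I * A J) ∧ A ⊤ = 1 ∧
      (∀ Q : Ideal (𝓞 M), Q.IsPrime → Q ≠ ⊥ →
        IsFrobRel (A (Q.under (𝓞 F))) Q (Ideal.absNorm (Q.under (𝓞 F)))) ∧
      (∀ k : ℕ, k₀ ≤ k → ∀ a : 𝓞 F, a ≠ 0 → a - 1 ∈ modT T k → A (Ideal.span {a}) = 1) ∧
      (∀ 𝔄 : Ideal (𝓞 M), 𝔄 ≠ ⊥ → Ideal.relNorm (𝓞 F) 𝔄 ⊔ modT T 1 = ⊤ →
        A (Ideal.relNorm (𝓞 F) 𝔄) = 1)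

/-- A group of prime order is commutative. -/
theorem ac_comm_of_finrank {p : ℕ} (hp : p.Prime) {F M : Type} [Field F] [Field M] [Algebra F M]
    [FiniteDimensional F M] [IsGalois F M] (hdeg : Module.finrank F M = p)
    (σ τ : M ≃ₐ[F] M) : σ * τ = τ * σ := by
  have : Fact p.Prime := ⟨hp⟩
  have hcard : Nat.card (M ≃ₐ[F] M) = p := by
    rw [IsGalois.card_aut_eq_finrank, hdeg]
  have : IsCyclic (M ≃ₐ[F] M) := isCyclic_of_prime_card hcard
  exact (IsCyclic.isMulCommutative (α := M ≃ₐ[F] M)).is_comm.comm σ τ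

/-- The Artin map exists, given `ArtinRay`. -/
theorem artinMapExists_of (hAR : ArtinRay) : ArtinMapExists := by
  intro p F M _ _ _ _ _ _ T hp hp2 hdeg hT hunr
  obtain ⟨k₀, hk₀, hray⟩ := hAR p F M T hp hp2 hdeg hT hunr
  obtain ⟨A, hmul, htop, hfrob⟩ := ac_exists_artinMap (F := F) (M := M)
    (ac_comm_of_finrank hp hdeg)
  have hne : ∀ {k : ℕ}, 1 ≤ k → ∀ I : Ideal (𝓞 F), I ⊔ modT T k = ⊤ → I ≠ ⊥ := by
    intro k hk I hI h
    rw [h, bot_sup_eq] at hI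
    exact rg_modT_ne_top hk hT hI
  refine ⟨A, k₀, hk₀, hmul, htop, hfrob, ?_, ?_⟩
  · intro k hk a ha0 ha1
    exact hray A (fun I J hI hJ => hmul I J (hne hk₀ I hI) (hne hk₀ J hJ))
      (fun Q hQ hQ0 _ => hfrob Q hQ hQ0) a ha0 (modT_anti T hk ha1)
  · intro 𝔄 h𝔄 hcop
    refine ac_map_relNorm hmul htop hfrob 𝔄 h𝔄 fun Q hQ hQ0 hle => ?_
    have hP : (Q.under (𝓞 F)).IsPrime := inferInstance
    have hP0 : Q.under (𝓞 F) ≠ ⊥ := Ideal.under_ne_bot (𝓞 F) hQ0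
    refine hunr Q hQ hQ0 (rg_ne_of_sup_eq_top le_rfl hP.ne_top ?_)
    -- `Q ∩ F` is prime to `T`
    by_contra hne'
    have hPmax : (Q.under (𝓞 F)).IsMaximal := hP.isMaximal hP0
    have hle' : modT T 1 ≤ Q.under (𝓞 F) := by
      have h1 := hPmax.eq_of_le hne' le_sup_left
      rw [h1]
      exact le_sup_right
    have h2 : (modT T 1).map (algebraMap (𝓞 F) (𝓞 M)) ≤ Q :=
      le_trans (Ideal.map_mono hle') Ideal.map_comap_le
    have h3 := sup_map_eq_top_of_relNorm hcop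
    have h4 : (⊤ : Ideal (𝓞 M)) ≤ Q := h3 ▸ sup_le hle h2
    exact hQ.ne_top (top_le_iff.mp h4)

end Fermat.Agent.F4Rec
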