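/-
F4 / GLOB reciprocity, work package RA (AuxPrime).  Owner: helper63.

For a prime `p`, `n ≥ 2` and a finite set `B` there is a prime `r ∉ B` with `n` a unit mod `r` and
`p ∣ orderOf (n : ZMod r)`: a prime factor `r ≠ p` of `Φ_p(n ^ (p ^ (j + 1)))` has
`orderOf n = p ^ (j + 2)`, so different `j` give different primes.
-/
import Fermat.Agent.F4.Recip.Statements

set_option autoImplicit false
set_option linter.style.haveILetI false

namespace Fermat.Agent.F4Rec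

open Finset

/-- `(x - 1) * ∑_{i<p} x^i = x^p - 1` in `ℤ`. -/
theorem ra_mul_geom (x : ℤ) (p : ℕ) : (x - 1) * (∑ i ∈ range p, x ^ i) = x ^ p - 1 :=
  mul_geom_sum x p

/-- A prime `r` dividing `∑_{i<p} x^i` either equals `p` or has `orderOf x = p` modulo `r`. -/
theorem ra_orderOf_eq {p x r : ℕ} (hp : p.Prime) (hr : r.Prime) (hrp : r ≠ p)
    (hrS : r ∣ ∑ i ∈ range p, x ^ i) : orderOf (x : ZMod r) = p := by
  haveI : Fact r.Prime := ⟨hr⟩
  have hS0 : (((∑ i ∈ range p, x ^ i : ℕ)) : ZMod r) = 0 := (ZMod.natCast_eq_zero_iff _ _).mpr hrS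
  push_cast at hS0
  have hpow : ((x : ZMod r)) ^ p = 1 := by
    have := mul_geom_sum (x : ZMod r) p
    rw [hS0, mul_zero] at this
    exact (sub_eq_zero.mp this.symm)
  have hord : orderOf (x : ZMod r) ∣ p := orderOf_dvd_of_pow_eq_one hpow
  rcases (Nat.dvd_prime hp).mp hord with h1 | h1
  · exfalso
    have hx1 : (x : ZMod r) = 1 := orderOf_eq_one_iff.mp h1
    rw [hx1] at hS0
    simp at hS0
    have : r ∣ p := (ZMod.natCast_eq_zero_iff _ _).mp hS0
    exact hrp ((Nat.prime_dvd_prime_iff_eq hr hp).mp this)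
  · exact h1

/-- `p < ∑_{i<p} x^i` for `x ≥ 2`, `p ≥ 2`. -/
theorem ra_lt_geom {p x : ℕ} (hp : 2 ≤ p) (hx : 2 ≤ x) : p < ∑ i ∈ range p, x ^ i := by
  have h1 : ∀ i ∈ range p, 1 ≤ x ^ i := fun i _ => Nat.one_le_pow _ _ (by omega)
  have h2 : ∑ i ∈ range p, (1 : ℕ) = p := by simp
  have hlt : ∑ i ∈ range p, (1 : ℕ) < ∑ i ∈ range p, x ^ i := by
    apply Finset.sum_lt_sum h1
    refine ⟨1, Finset.mem_range.mpr (by omega), ?_⟩
    simp only [pow_one]
    omega
  omega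

/-- If `p ∣ ∑_{i<p} x^i` then `x ≡ 1 mod p`. -/
theorem ra_mod_eq_one {p x : ℕ} (hp : p.Prime) (h : p ∣ ∑ i ∈ range p, x ^ i) :
    (x : ZMod p) = 1 := by
  haveI : Fact p.Prime := ⟨hp⟩
  have hS0 : (((∑ i ∈ range p, x ^ i : ℕ)) : ZMod p) = 0 := (ZMod.natCast_eq_zero_iff _ _).mpr h
  push_cast at hS0
  have := mul_geom_sum (x : ZMod p) p
  rw [hS0, mul_zero, ZMod.pow_card] at this
  exact (sub_eq_zero.mp this.symm)

/-- `p ^ 2 ∤ ∑_{i<p} x^i` for `p` odd. -/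
theorem ra_not_sq_dvd_odd {p x : ℕ} (hp : p.Prime) (hp2 : p ≠ 2) (hx : 2 ≤ x) :
    ¬ p ^ 2 ∣ ∑ i ∈ range p, x ^ i := by
  intro h
  haveI : Fact p.Prime := ⟨hp⟩
  have hpS : p ∣ ∑ i ∈ range p, x ^ i := dvd_trans (dvd_pow_self p two_ne_zero) h
  have hx1 := ra_mod_eq_one hp hpS
  have hpodd : Odd p := hp.odd_of_ne_two hp2
  have hdvd : p ∣ x - 1 := by
    have h1 : ((x - 1 : ℕ) : ZMod p) = 0 := by
      rw [Nat.cast_sub (by omega), hx1]
      simp
    exact (ZMod.natCast_eq_zero_iff _ _).mp h1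
  have hndvd : ¬ p ∣ x := by
    intro h0
    have h1 : (x : ZMod p) = 0 := (ZMod.natCast_eq_zero_iff _ _).mpr h0
    rw [hx1] at h1
    exact one_ne_zero h1
  have hLTE : padicValNat p (x ^ p - 1 ^ p) = padicValNat p (x - 1) + padicValNat p p :=
    padicValNat.pow_sub_pow hpodd (by omega) hdvd hndvd hp.ne_zero
  rw [one_pow, padicValNat_self] at hLTE
  have hmul : (x - 1) * (∑ i ∈ range p, x ^ i) = x ^ p - 1 := by
    have h1 : 1 ≤ x ^ p := Nat.one_le_pow p x (by omega)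
    zify [show 1 ≤ x by omega, h1]
    exact mul_geom_sum (x : ℤ) p
  have hS0 : (∑ i ∈ range p, x ^ i) ≠ 0 := by
    have := ra_lt_geom hp.two_le hx
    omega
  have hx1' : x - 1 ≠ 0 := by omega
  rw [← hmul, padicValNat.mul hx1' hS0] at hLTE
  have h2 : 2 ≤ padicValNat p (∑ i ∈ range p, x ^ i) := (padicValNat_dvd_iff_le hS0).mp h
  omega

/-- `4 ∤ 1 + y ^ 2`. -/
theorem ra_not_four_dvd (y : ℕ) : ¬ 4 ∣ 1 + y ^ 2 := by
  intro h
  have h1 : (1 + y ^ 2) % 4 = 0 := Nat.mod_eq_zero_of_dvd h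
  have h2 : y % 4 = 0 ∨ y % 4 = 1 ∨ y % 4 = 2 ∨ y % 4 = 3 := by omega
  have h3 : (1 + y ^ 2) % 4 = (1 + (y % 4) ^ 2) % 4 := by
    rw [Nat.add_mod, Nat.pow_mod, ← Nat.add_mod]
  rw [h3] at h1
  rcases h2 with h | h | h | h <;> rw [h] at h1 <;> norm_num at h1

/-- For `x = y ^ p ≥ 2` the sum `∑_{i<p} x^i` has a prime factor different from `p`. -/
theorem ra_exists_prime {p y : ℕ} (hp : p.Prime) (hy : 2 ≤ y) :
    ∃ r : ℕ, r.Prime ∧ r ≠ p ∧ r ∣ ∑ i ∈ range p, (y ^ p) ^ i := by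
  set x := y ^ p with hx
  have hx2 : 2 ≤ x := le_trans hy (Nat.le_self_pow hp.ne_zero y)
  set S := ∑ i ∈ range p, x ^ i with hS
  have hlt : p < S := ra_lt_geom hp.two_le hx2
  have hsq : ¬ p ^ 2 ∣ S := by
    by_cases hp2 : p = 2
    · subst hp2
      have hS2 : S = 1 + (y ^ 1) ^ 2 := by
        rw [hS, hx]
        simp [Finset.sum_range_succ]
      rw [hS2]
      exact ra_not_four_dvd _
    · exact ra_not_sq_dvd_odd hp hp2 hx2
  by_cases hpS : p ∣ S
  · obtain ⟨m, hm⟩ := hpS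
    have hm1 : m ≠ 1 := by
      rintro rfl
      omega
    have hpm : ¬ p ∣ m := by
      rintro ⟨k, rfl⟩
      exact hsq ⟨k, by rw [hm]; ring⟩
    obtain ⟨r, hr, hrm⟩ := Nat.exists_prime_and_dvd hm1
    refine ⟨r, hr, ?_, hm ▸ Dvd.dvd.mul_left hrm p⟩
    rintro rfl
    exact hpm hrm
  · have hS1 : S ≠ 1 := by
      have := hp.two_le
      omega
    obtain ⟨r, hr, hrS⟩ := Nat.exists_prime_and_dvd hS1
    refine ⟨r, hr, ?_, hrS⟩
    rintro rfl
    exact hpS hrS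


/-- If `n ^ (p ^ k)` has order `p` then `n` has order `p ^ (k + 1)`. -/
theorem ra_orderOf_of_pow {r p k : ℕ} [Fact r.Prime] (hp : p.Prime) (a : ZMod r)
    (h : orderOf (a ^ (p ^ k)) = p) : orderOf a = p ^ (k + 1) := by
  have h1 : a ^ (p ^ (k + 1)) = 1 := by
    have h0 : (a ^ (p ^ k)) ^ p = 1 := by
      have := pow_orderOf_eq_one (a ^ (p ^ k))
      rwa [h] at this
    rw [pow_succ, pow_mul]
    exact h0
  have h2 : orderOf a ∣ p ^ (k + 1) := orderOf_dvd_of_pow_eq_one h1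
  obtain ⟨i, hi, hoi⟩ := (Nat.dvd_prime_pow hp).mp h2
  rcases Nat.lt_or_ge i (k + 1) with hlt | hge
  · exfalso
    have h3 : a ^ (p ^ k) = 1 := by
      have h4 : orderOf a ∣ p ^ k := by
        rw [hoi]
        exact pow_dvd_pow p (by omega)
      exact orderOf_dvd_iff_pow_eq_one.mp h4
    rw [h3, orderOf_one] at h
    exact hp.one_lt.ne h
  · rw [hoi, le_antisymm hi hge]

/-- For every `j` a prime `r` with `orderOf (n : ZMod r) = p ^ (j + 2)`. -/
theorem ra_exists_prime_orderOf {p n : ℕ} (hp : p.Prime) (hn : 2 ≤ n) (j : ℕ) :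
    ∃ r : ℕ, r.Prime ∧ orderOf (n : ZMod r) = p ^ (j + 2) := by
  have hy : 2 ≤ n ^ (p ^ j) := le_trans hn (Nat.le_self_pow (pow_pos hp.pos j).ne' n)
  obtain ⟨r, hr, hrp, hrS⟩ := ra_exists_prime hp hy
  haveI : Fact r.Prime := ⟨hr⟩
  refine ⟨r, hr, ?_⟩
  have h1 := ra_orderOf_eq hp hr hrp hrS
  have h2 : ((((n ^ (p ^ j)) ^ p : ℕ)) : ZMod r) = (n : ZMod r) ^ (p ^ (j + 1)) := by
    push_cast
    rw [← pow_mul, ← pow_succ]
  rw [h2] at h1
  exact ra_orderOf_of_pow hp _ h1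

/-- **(X1) AuxPrime.** -/
theorem auxPrime : AuxPrime := by
  intro p n B hp hn
  choose f hf using fun j => ra_exists_prime_orderOf hp hn j
  have hinj : Function.Injective f := by
    intro i j hij
    have h1 := (hf i).2
    have h2 := (hf j).2
    rw [hij, h2] at h1
    have := Nat.pow_right_injective hp.two_le h1
    omega
  by_contra hcon
  push Not at hcon
  -- every `f j` lies in `B`
  have hmem : ∀ j, f j ∈ B := by
    intro j
    by_contra hj
    haveI : Fact (f j).Prime := ⟨(hf j).1⟩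
    refine hcon (f j) (hf j).1 hj ?_ ?_
    · intro h0
      have h3 : ((n : ZMod (f j))) ^ (p ^ (j + 2)) = 1 := by
        rw [← (hf j).2]
        exact pow_orderOf_eq_one _
      rw [h0, zero_pow (pow_pos hp.pos _).ne'] at h3
      exact zero_ne_one h3
    · rw [(hf j).2]
      exact dvd_pow_self p (by omega)
  have hcard : (Finset.range (B.card + 1)).card ≤ B.card :=
    Finset.card_le_card_of_injOn f (fun j _ => hmem j) (fun i _ j _ h => hinj h)
  rw [Finset.card_range] at hcard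
  omega

end Fermat.Agent.F4Rec
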