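import Fermat.Agent.F4.Recip.Statements
import Fermat.Agent.S14.Crossing.SplitPrimeEH

/-!
# F4/Recip, piece R9: `InertRes` (after S14 C9 of helper13)

A Frobenius element of `Ω/E_H` at a prime above a prime `B` of `E_H` which is inert in `M_H` is not
trivial on `M`.
-/

set_option autoImplicit false
set_option linter.unusedSectionVars false

open NumberField Polynomial
open scoped nonZeroDivisors IntermediateField

namespace Fermat.Agent.F4Rec

open Fermat.Agent.S14 (InInertia)

section r9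

variable {F M : Type} [Field F] [NumberField F] [Field M] [NumberField M] [Algebra F M]
  [IsGalois F M] {m : ℕ} [NeZero m]

/-- An element of `H` which is trivial on `M` fixes `M_H` pointwise. -/
theorem r9_fix_MH (H : Subgroup (Gam F M m)) {g : Gam F M m} (hgH : g ∈ H)
    (hg1 : resM F M m g = 1) (x : Om M m) (hx : x ∈ MH F M m H) : g x = x := by
  have hfix : g ∈ (EH F M m H).fixingSubgroup := by
    have := (IntermediateField.le_iff_le H (EH F M m H)).mp le_rfl
    exact this hgH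
  set g' : Om M m ≃ₐ[EH F M m H] Om M m :=
    IntermediateField.fixingSubgroupEquiv (EH F M m H) ⟨g, hfix⟩ with hg'
  have hg'g : AlgEquiv.restrictScalarsHom F g' = g := by
    ext y
    rfl
  have hmem : g' ∈ HL F M m H := by
    show (resM F M m) (AlgEquiv.restrictScalarsHom F g') = 1
    rw [hg'g, hg1]
  have := (IntermediateField.mem_fixedField_iff (HL F M m H) x).mp hx g' hmem
  exact this

end r9

/-- **(R9)** `InertRes`. -/
theorem inertRes : InertRes := by
  intro F M _ _ _ _ _ _ m _ H B g P hB hB0 hgH hP hPB hg hin hg1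
  -- the prime of `M_H` below `P`
  set B' : Ideal (𝓞 (MH F M m H)) := P.under (𝓞 (MH F M m H)) with hB'def
  have hB' : B'.IsPrime := inferInstance
  have hB'B : B'.under (𝓞 (EH F M m H)) = B := by
    rw [hB'def, Ideal.under_under, hPB]
  have hover : B'.LiesOver B := ⟨hB'B.symm⟩
  have hB'0 : B' ≠ ⊥ := Ideal.ne_bot_of_liesOver_of_ne_bot hB0 B'
  have hpow : ∀ x : 𝓞 (MH F M m H),
      x ^ Ideal.absNorm (B'.under (𝓞 (EH F M m H))) - x ∈ B' := by
    intro x
    rw [hB'B, hB'def, Ideal.under_def, Ideal.mem_comap]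
    obtain ⟨z, hz, hxz⟩ := hg (algebraMap (𝓞 (MH F M m H)) (𝓞 (Om M m)) x)
    have hfix : g ((algebraMap (𝓞 (MH F M m H)) (𝓞 (Om M m)) x : 𝓞 (Om M m)) : Om M m) =
        ((algebraMap (𝓞 (MH F M m H)) (𝓞 (Om M m)) x : 𝓞 (Om M m)) : Om M m) :=
      r9_fix_MH H hgH hg1 _ (x : MH F M m H).2
    rw [hfix] at hxz
    have : algebraMap (𝓞 (MH F M m H)) (𝓞 (Om M m))
        (x ^ Ideal.absNorm B - x) = -z := by
      apply RingOfIntegers.ext
      show _ = -(z : Om M m)
      rw [← hxz, map_sub, map_pow]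
      simp
    rw [this]
    exact P.neg_mem hz
  obtain ⟨-, h2⟩ := Fermat.Agent.S14.Cross.c11_relNorm_eq_under (E := EH F M m H) B' hB' hB'0 hpow
  rw [hB'B] at h2
  -- `N B' = N B ^ f` with `f > 1`
  have hBmax : B.IsMaximal := hB.isMaximal hB0
  have hB'max : B'.IsMaximal := hB'.isMaximal hB'0
  have h3 := Ideal.absNorm_eq_pow_inertiaDeg'_of_liesOver B' B hB hB0
  have h4 : B.inertiaDeg' B' = B'.inertiaDeg (𝓞 (EH F M m H)) :=
    Ideal.inertiaDeg'_eq_inertiaDeg B B'
  have h5 : B.inertiaDegIn (𝓞 (MH F M m H)) = B'.inertiaDeg (𝓞 (EH F M m H)) :=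
    Ideal.inertiaDegIn_eq_inertiaDeg B B' Gal(MH F M m H/EH F M m H)
  rw [h4, ← h5, h2] at h3
  have hN1 : 1 < Ideal.absNorm B := by
    have h0 : Ideal.absNorm B ≠ 0 := fun h => hB0 (Ideal.absNorm_eq_zero_iff.mp h)
    have h1 : Ideal.absNorm B ≠ 1 := fun h => hB.ne_top (Ideal.absNorm_eq_one_iff.mp h)
    omega
  have h6 := Nat.pow_lt_pow_right hN1 hin
  rw [pow_one, ← h3] at h6
  exact lt_irrefl _ h6

end Fermat.Agent.F4Rec
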