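import Fermat.Agent.F4.Recip.CompareHalf
import Fermat.Agent.F4.Recip.ExistsFrob
import Fermat.Agent.F4.Recip.CycFrob
import Fermat.Agent.F4.Recip.InertRes
import Fermat.Agent.S14.SI.InertPrime
import Fermat.Agent.S14.Crossing.CompareBasic

/-!
# F4/Recip: the common overfield `E₃` and its inert prime
-/

set_option autoImplicit false
set_option linter.unusedSectionVars false

open NumberField Polynomial
open scoped nonZeroDivisors IntermediateField

noncomputable section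

namespace Fermat.Agent.F4Rec

variable {F M : Type} [Field F] [NumberField F] [Field M] [NumberField M] [Algebra F M]
  [IsGalois F M] {m : ℕ} [NeZero m]

/-- In `E_H` (with `resM H = Gal(M/F)`, `[M : F] = p` prime) there is a prime ideal of prime norm
outside a given finite set of primes, prime to `m`, with a Frobenius element `g ∈ H` which is
nontrivial on `M`. -/
theorem cmp_third (p : ℕ) (H : Subgroup (Gam F M m)) (hp : p.Prime)
    (hdeg : Module.finrank F M = p)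
    (hsH : ∀ σ : M ≃ₐ[F] M, ∃ g ∈ H, resM F M m g = σ) (B : Finset ℕ) :
    ∃ (P₃ : Ideal (𝓞 (EH F M m H))) (g : Gam F M m), P₃ ≠ ⊥ ∧ (Ideal.absNorm P₃).Prime ∧
      Ideal.absNorm P₃ ∉ B ∧ (Ideal.absNorm P₃).Coprime m ∧
      g ∈ H ∧ resM F M m g ≠ 1 ∧
      ((cyc F M m g : (ZMod m)ˣ) : ZMod m) = ((Ideal.absNorm P₃ : ℕ) : ZMod m) := by
  obtain ⟨q, 𝔮, hq, hqB, hN, hf⟩ := Fermat.Agent.S14SI.inertPrimeExists p (EH F M m H)
    (MH F M m H) hp (by rw [finrankEHMH F M m H hsH, hdeg]) (B ∪ m.primeFactors)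
  have hqB1 : q ∉ B := fun h => hqB (Finset.mem_union_left _ h)
  have hqm : q.Coprime m := by
    rw [Nat.Prime.coprime_iff_not_dvd hq]
    intro h
    exact hqB (Finset.mem_union_right _ (Nat.mem_primeFactors.mpr ⟨hq, h, NeZero.ne m⟩))
  have h𝔮p : 𝔮.IsPrime := Ideal.isPrime_of_irreducible_absNorm (by rw [hN]; exact hq)
  have h𝔮0 : 𝔮 ≠ ⊥ := by
    rintro rfl
    rw [Ideal.absNorm_bot] at hN
    exact hq.ne_zero hN.symm
  obtain ⟨g, P, hgF, hPp, hPu, hFrob⟩ := existsFrob F M m (EH F M m H) 𝔮 h𝔮p h𝔮0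
  have hgH : g ∈ H := by
    rwa [IntermediateField.fixingSubgroup_fixedField] at hgF
  refine ⟨𝔮, g, h𝔮0, hN ▸ hq, hN ▸ hqB1, hN ▸ hqm, hgH, ?_, ?_⟩
  · exact inertRes F M m H 𝔮 g P h𝔮p h𝔮0 hgH hPp hPu hFrob (by rw [hf]; exact hp.one_lt)
  · have hmP : (m : 𝓞 (Om M m)) ∉ P := by
      intro hm
      have h2 : (m : 𝓞 (EH F M m H)) ∈ 𝔮 := by
        rw [← hPu, Ideal.under_def, Ideal.mem_comap, map_natCast]
        exact hm
      exact Fermat.Agent.S14.Cross.natCast_not_mem_of_coprime h𝔮p.ne_top (hN ▸ hqm) h2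
    have := cycFrob F M m g P _ m (dvd_refl m) hPp hFrob hmP
    rwa [ZMod.unitsMap_self] at this

end Fermat.Agent.F4Rec
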