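import Fermat.Agent.F4.Recip.Statements

/-!
# F4 / GLOB reciprocity, piece R3 (G3): `(resM, cyc) : Gal(Ω/F) → Gal(M/F) × (ℤ/m)ˣ` is onto

`Ω = M(ζ_m)`, `m` prime to the discriminant of `M`.  Then `ℚ(ζ_m)` and `M` are linearly disjoint
over `ℚ`, so `[Ω : M] ≥ φ(m)` and the (injective) cyclotomic character of `Gal(Ω/M)` is onto;
an arbitrary lift of `σ ∈ Gal(M/F)` to `Ω` is then corrected by an element of `Gal(Ω/M)`.
-/

set_option autoImplicit false
set_option linter.unusedSectionVars false

open NumberField Polynomial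
open scoped nonZeroDivisors IntermediateField

noncomputable section

namespace Fermat.Agent.F4Rec

variable (M : Type) [Field M] [NumberField M]
variable (m : ℕ) [NeZero m]

/-- `[Ω : ℚ] ≥ φ(m) [M : ℚ]` when `m` is prime to the discriminant of `M`. -/
theorem r3_finrank_ge (hcop : IsCoprime (m : ℤ) (NumberField.discr M)) :
    m.totient * Module.finrank ℚ M ≤ Module.finrank ℚ (Om M m) := by
  have hζ := zetaOm_spec M m
  let K₁ : IntermediateField ℚ (Om M m) := ℚ⟮zetaOm M m⟯
  let K₂ : IntermediateField ℚ (Om M m) := (IsScalarTower.toAlgHom ℚ M (Om M m)).fieldRange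
  have : IsCyclotomicExtension {m} ℚ K₁ := hζ.intermediateField_adjoin_isCyclotomicExtension ℚ
  have : IsGalois ℚ K₁ := IsCyclotomicExtension.isGalois {m} ℚ K₁
  let e : M ≃ₐ[ℚ] K₂ := AlgEquiv.ofInjectiveField (IsScalarTower.toAlgHom ℚ M (Om M m))
  have hd2 : NumberField.discr K₂ = NumberField.discr M :=
    (NumberField.discr_eq_discr_of_algEquiv _ e).symm
  have hcpr : IsCoprime (NumberField.discr K₁) (NumberField.discr K₂) := by
    rw [hd2, Int.isCoprime_iff_nat_coprime, IsCyclotomicExtension.Rat.natAbs_discr m K₁]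
    have h1 : Nat.Coprime m (NumberField.discr M).natAbs := by
      have := Int.isCoprime_iff_nat_coprime.1 hcop
      simpa using this
    refine Nat.Coprime.coprime_div_left ?_
      (Nat.prod_primeFactors_pow_totient_ediv_dvd (NeZero.pos _))
    exact Nat.Coprime.pow_left _ h1
  have hdisj := NumberField.linearDisjoint_of_isGalois_isCoprime_discr (Om M m) K₁ K₂ hcpr
  have h1 := hdisj.finrank_sup
  have h2 : Module.finrank ℚ K₁ = m.totient := IsCyclotomicExtension.Rat.finrank m K₁
  have h3 : Module.finrank ℚ K₂ = Module.finrank ℚ M :=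
    (LinearEquiv.finrank_eq e.toLinearEquiv).symm
  have h4 : Module.finrank ℚ ↥(K₁ ⊔ K₂) ≤ Module.finrank ℚ (Om M m) :=
    Submodule.finrank_le (K₁ ⊔ K₂).toSubalgebra.toSubmodule
  rw [h1, h2, h3] at h4
  exact h4

/-- `|Gal(Ω/M)| ≥ φ(m)`. -/
theorem r3_card_ge (hcop : IsCoprime (m : ℤ) (NumberField.discr M)) :
    m.totient ≤ Nat.card (Om M m ≃ₐ[M] Om M m) := by
  rw [IsGalois.card_aut_eq_finrank M (Om M m)]
  have h := r3_finrank_ge M m hcop
  have h5 : Module.finrank ℚ (Om M m)
      = Module.finrank ℚ M * Module.finrank M (Om M m) :=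
    (Module.finrank_mul_finrank ℚ M (Om M m)).symm
  rw [h5, mul_comm] at h
  exact Nat.le_of_mul_le_mul_left h Module.finrank_pos

/-- The cyclotomic character of `Gal(Ω/M)` is onto. -/
theorem r3_autToPow_surjective (hcop : IsCoprime (m : ℤ) (NumberField.discr M)) :
    Function.Surjective ((zetaOm_spec M m).autToPow M) := by
  have hinj := (zetaOm_spec M m).autToPow_injective M
  have hcard : Nat.card (ZMod m)ˣ ≤ Nat.card (Om M m ≃ₐ[M] Om M m) := by
    rw [Nat.card_eq_fintype_card, ZMod.card_units_eq_totient]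
    exact r3_card_ge M m hcop
  exact (Function.Injective.bijective_of_nat_card_le hinj hcard).2

/-- **(R3)** `(resM, cyc) : Gal(Ω/F) → Gal(M/F) × (ℤ/m)ˣ` is onto. -/
theorem gamSurj : GamSurj := by
  intro F M _ _ _ _ _ _ m _ hcop σ a
  obtain ⟨g₀, hg₀⟩ := AlgEquiv.restrictNormalHom_surjective (F := F) (K₁ := M) (Om M m) σ
  obtain ⟨h, hh⟩ := r3_autToPow_surjective M m hcop (a * (cyc F M m g₀)⁻¹)
  let h' : Gam F M m := h.restrictScalars F
  have hres : resM F M m h' = 1 := by
    ext x
    apply (algebraMap M (Om M m)).injective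
    rw [resM_commutes]
    exact h.commutes x
  have hcyc : cyc F M m h' = a * (cyc F M m g₀)⁻¹ := by
    rw [← hh]
    have h1 := cyc_spec F M m h'
    have h2 := IsPrimitiveRoot.autToPow_spec M (zetaOm_spec M m) h
    have h3 : h' (zetaOm M m) = h (zetaOm M m) := rfl
    rw [h3, ← h2] at h1
    have h4 := (zetaOm_spec M m).pow_inj (ZMod.val_lt _) (ZMod.val_lt _) h1
    exact Units.ext (ZMod.val_injective m h4.symm)
  refine ⟨h' * g₀, ?_, ?_⟩
  · rw [map_mul, hres, one_mul]
    exact hg₀
  · rw [map_mul, hcyc, inv_mul_cancel_right]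

end Fermat.Agent.F4Rec
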