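import Fermat.Agent.F4.Recip.CompareAbstract
import Fermat.Agent.F4.Recip.CompareThird
import Fermat.Agent.F4.Recip.GamSurj
import Fermat.Agent.F4.Recip.AuxPrime
import Fermat.Agent.S14.Crossing.CompareChar
import Fermat.Agent.S14.AuxChar

/-!
# F4/Recip: assembly of `CompareRay` (Artin's crossing argument, with a modulus)
-/

set_option autoImplicit false
set_option linter.unusedSectionVars false

open NumberField Polynomial
open scoped nonZeroDivisors IntermediateField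

noncomputable section

namespace Fermat.Agent.F4Rec

open Fermat.Agent.F4Ray (RayClassMap SecondIneqRay)
open Fermat.Agent.S14.Cross (exists_char_of_prime_card im_le_of_prim exists_unit_crt)

/-- The norm of a nonzero prime ideal is at least `2`. -/
theorem two_le_absNorm_of_prime {F : Type} [Field F] [NumberField F] {P : Ideal (𝓞 F)}
    (hP : P.IsPrime) (hP0 : P ≠ ⊥) : 2 ≤ Ideal.absNorm P := by
  have h0 : Ideal.absNorm P ≠ 0 := by
    rw [Ne, Ideal.absNorm_eq_zero_iff]; exact hP0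
  have h1 : Ideal.absNorm P ≠ 1 := by
    rw [Ne, Ideal.absNorm_eq_one_iff]; exact hP.ne_top
  omega

/-- A prime outside the prime factors of `N ≠ 0` does not divide `N`. -/
theorem not_dvd_of_not_mem_primeFactors {r N : ℕ} (hr : r.Prime) (hN : N ≠ 0)
    (h : r ∉ N.primeFactors) : ¬ r ∣ N :=
  fun hd => h (Nat.mem_primeFactors.mpr ⟨hr, hd, hN⟩)

/-- `CompareRay` from the reciprocity statement `ERec` for the auxiliary extensions. -/
theorem compareRay_of (hERec : ERec) : CompareRay := by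
  intro p F M _ _ _ _ _ _ 𝔪 G _ _ cls u Q Q' τ hp hp2 hdeg hray hkill hu hQ hQ' hQ0 hQ'0 hQm
    hQ'm hU hU' hτ1 hF hF'
  have : Fact p.Prime := ⟨hp⟩
  have hcard : Nat.card (M ≃ₐ[F] M) = p := by
    rw [IsGalois.card_aut_eq_finrank, hdeg]
  have : Finite (M ≃ₐ[F] M) := Nat.finite_of_card_ne_zero (hcard ▸ hp.ne_zero)
  have hP0 : Q.under (𝓞 F) ≠ ⊥ := Ideal.under_ne_bot (𝓞 F) hQ0
  have hP'0 : Q'.under (𝓞 F) ≠ ⊥ := Ideal.under_ne_bot (𝓞 F) hQ'0
  have hPp : (Q.under (𝓞 F)).IsPrime := inferInstance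
  have hP'p : (Q'.under (𝓞 F)).IsPrime := inferInstance
  set n : ℕ := Ideal.absNorm (Q.under (𝓞 F)) with hn
  set n' : ℕ := Ideal.absNorm (Q'.under (𝓞 F)) with hn'
  have hn2 : 2 ≤ n := two_le_absNorm_of_prime hPp hP0
  have hn'2 : 2 ≤ n' := two_le_absNorm_of_prime hP'p hP'0
  have hd0 : (NumberField.discr M).natAbs ≠ 0 := Int.natAbs_ne_zero.mpr (NumberField.discr_ne_zero M)
  have hN0 : n * n' * (NumberField.discr M).natAbs ≠ 0 :=
    mul_ne_zero (mul_ne_zero (by omega) (by omega)) hd0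
  -- auxiliary primes
  obtain ⟨r, hr, hrB, hnr0, hord⟩ := auxPrime p n (n * n' * (NumberField.discr M).natAbs).primeFactors
    hp hn2
  obtain ⟨r', hr', hr'B, hn'r'0, hord'⟩ := auxPrime p n'
    (insert r (n * n' * (NumberField.discr M).natAbs).primeFactors) hp hn'2
  have hrN := not_dvd_of_not_mem_primeFactors hr hN0 hrB
  have hr'N := not_dvd_of_not_mem_primeFactors hr' hN0
    (fun h => hr'B (Finset.mem_insert_of_mem h))
  have hrr' : r ≠ r' := fun h => hr'B (h ▸ Finset.mem_insert_self _ _)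
  have hrn : ¬ r ∣ n := fun h => hrN ((h.mul_right n').mul_right _)
  have hrn' : ¬ r ∣ n' := fun h => hrN ((h.mul_left n).mul_right _)
  have hrd : ¬ r ∣ (NumberField.discr M).natAbs := fun h => hrN (h.mul_left _)
  have hr'n : ¬ r' ∣ n := fun h => hr'N ((h.mul_right n').mul_right _)
  have hr'n' : ¬ r' ∣ n' := fun h => hr'N ((h.mul_left n).mul_right _)
  have hr'd : ¬ r' ∣ (NumberField.discr M).natAbs := fun h => hr'N (h.mul_left _)
  have hnr : n.Coprime r := ((Nat.Prime.coprime_iff_not_dvd hr).mpr hrn).symm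
  have hnr' : n.Coprime r' := ((Nat.Prime.coprime_iff_not_dvd hr').mpr hr'n).symm
  have hn'r : n'.Coprime r := ((Nat.Prime.coprime_iff_not_dvd hr).mpr hrn').symm
  have hn'r' : n'.Coprime r' := ((Nat.Prime.coprime_iff_not_dvd hr').mpr hr'n').symm
  have hcop : r.Coprime r' := (Nat.coprime_primes hr hr').mpr hrr'
  have : NeZero r := ⟨hr.ne_zero⟩
  have : NeZero r' := ⟨hr'.ne_zero⟩
  have : NeZero (r * r') := ⟨mul_ne_zero hr.ne_zero hr'.ne_zero⟩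
  have hrm : r ∣ r * r' := dvd_mul_right r r'
  have hr'm : r' ∣ r * r' := dvd_mul_left r' r
  have hnm : n.Coprime (r * r') := Nat.Coprime.mul_right hnr hnr'
  have hn'm : n'.Coprime (r * r') := Nat.Coprime.mul_right hn'r hn'r'
  have hmd : IsCoprime ((r * r' : ℕ) : ℤ) (NumberField.discr M) := by
    rw [Int.isCoprime_iff_gcd_eq_one, Int.gcd, Int.natAbs_natCast]
    exact Nat.Coprime.mul_left ((Nat.Prime.coprime_iff_not_dvd hr).mpr hrd)
      ((Nat.Prime.coprime_iff_not_dvd hr').mpr hr'd)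
  -- characters
  have hω₀ : IsPrimitiveRoot (Complex.exp (2 * Real.pi * Complex.I / p)) p :=
    Complex.isPrimitiveRoot_exp p hp.ne_zero
  set ω₀ : ℂ := Complex.exp (2 * Real.pi * Complex.I / p) with hω₀def
  have hω₀u : IsPrimitiveRoot (ω₀ ^ u) p :=
    hω₀.pow_of_coprime u ((Nat.coprime_comm.mp ((Nat.Prime.coprime_iff_not_dvd hp).mpr hu)))
  obtain ⟨ψ, hψ⟩ := exists_char_of_prime_card hp hcard hτ1
    (Units.mk0 ω₀ (hω₀.ne_zero hp.ne_zero)) (by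
      apply Units.ext
      rw [Units.val_pow_eq_pow_val, Units.val_mk0, hω₀.pow_eq_one, Units.val_one])
  have hψ' : ((ψ τ : ℂˣ) : ℂ) = ω₀ := by rw [hψ, Units.val_mk0]
  obtain ⟨χ₁, hχ₁, hχ₁pow⟩ := Fermat.Agent.S14.auxCharCoprime p r n ω₀ hp hr hrn hord hω₀
  obtain ⟨χ₂, hχ₂, hχ₂pow⟩ :=
    Fermat.Agent.S14.auxCharCoprime p r' n' (ω₀ ^ u) hp hr' hr'n' hord' hω₀u
  have him₁ := im_le_of_prim hp hcard ψ χ₁ hnr hω₀ hχ₁
  have him₂ := im_le_of_prim hp hcard ψ χ₂ hn'r' hω₀u hχ₂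
  -- surjectivity
  have hsurj := gamSurj F M (r * r') hmd
  -- the two halves
  obtain ⟨hE₁, B₁, hB₁p, hB₁0, hB₁n, hB₁r⟩ := cmp_half hERec p r hrm ψ χ₁ hp hp2 hdeg hr hsurj
    hχ₁pow him₁ 𝔪 G cls hray hkill Q τ hQ hQ0 hU hQm hnm hF
    (by rw [hχ₁, hψ']) (by rw [hχ₁]; exact hω₀.ne_one hp.one_lt)
  obtain ⟨hE₂, B₂, hB₂p, hB₂0, hB₂n, hB₂r⟩ := cmp_half hERec p r' hr'm ψ χ₂ hp hp2 hdeg hr' hsurj
    hχ₂pow him₂ 𝔪 G cls hray hkill Q' (τ ^ u) hQ' hQ'0 hU' hQ'm hn'm hF'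
    (by rw [hχ₂, map_pow, Units.val_pow_eq_pow_val, hψ'])
    (by rw [hχ₂]; exact hω₀u.ne_one hp.one_lt)
  -- the third field
  have h𝔪0 : Ideal.absNorm 𝔪 ≠ 0 := by
    rw [Ne, Ideal.absNorm_eq_zero_iff]; exact hray.m_ne_bot
  obtain ⟨P₃, g₃, hP₃0, hP₃p, hP₃B, hP₃m, hg₃H, hres₃, hcyc₃⟩ := cmp_third p
    ((Theta F M (r * r') ψ hrm χ₁).ker ⊓ (Theta F M (r * r') ψ hr'm χ₂).ker) hp hdeg
    (by
      intro σ
      obtain ⟨a₁, ha₁⟩ := him₁ σ
      obtain ⟨a₂, ha₂⟩ := him₂ σ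
      obtain ⟨a, haa₁, haa₂⟩ := exists_unit_crt hcop a₁ a₂
      obtain ⟨g, hg1, hg2⟩ := hsurj σ a
      refine ⟨g, Subgroup.mem_inf.mpr ⟨(mem_ker_theta_iff ψ hrm χ₁ g).mpr ?_,
        (mem_ker_theta_iff ψ hr'm χ₂ g).mpr ?_⟩, hg1⟩
      · rw [hg2, haa₁, ha₁, hg1]
      · rw [hg2, haa₂, ha₂, hg1])
    (Ideal.absNorm 𝔪).primeFactors
  have hP₃𝔪 : (Ideal.absNorm P₃).Coprime (Ideal.absNorm 𝔪) :=
    (Nat.Prime.coprime_iff_not_dvd hP₃p).mpr (not_dvd_of_not_mem_primeFactors hP₃p h𝔪0 hP₃B)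
  obtain ⟨k, hk⟩ : ∃ k : ℕ, τ ^ k = resM F M (r * r') g₃ :=
    (Submonoid.mem_powers_iff _ _).mp (mem_powers_of_prime_card hcard hτ1)
  have hkp : ¬ p ∣ k := by
    rintro ⟨t, rfl⟩
    apply hres₃
    rw [← hk, pow_mul, ← hcard, pow_card_eq_one', one_pow]
  have hχP₁ : χ₁ ((Ideal.absNorm P₃ : ℕ) : ZMod r) = ω₀ ^ k := by
    have h1 := (mem_ker_theta_iff ψ hrm χ₁ g₃).mp (Subgroup.mem_inf.mp hg₃H).1
    rw [ZMod.unitsMap_val, hcyc₃, ZMod.cast_natCast hrm, ← hk, map_pow,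
      Units.val_pow_eq_pow_val, hψ'] at h1
    exact h1
  have hχP₂ : χ₂ ((Ideal.absNorm P₃ : ℕ) : ZMod r') = ω₀ ^ k := by
    have h1 := (mem_ker_theta_iff ψ hr'm χ₂ g₃).mp (Subgroup.mem_inf.mp hg₃H).2
    rw [ZMod.unitsMap_val, hcyc₃, ZMod.cast_natCast hr'm, ← hk, map_pow,
      Units.val_pow_eq_pow_val, hψ'] at h1
    exact h1
  -- the group `G` has exponent `p`
  have hexp : ∀ g : G, g ^ p = 1 := by
    intro g
    obtain ⟨I, hI0, hIm, rfl⟩ := hray.surj g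
    rw [← cls_pow hray.mul hIm]
    have h3 : Ideal.relNorm (𝓞 F) (I.map (algebraMap (𝓞 F) (𝓞 M))) = I ^ p := by
      have hfr : Module.finrank (𝓞 F) (𝓞 M) = Module.finrank F M :=
        (IsFractionRing.finrank_eq (𝓞 F) F (𝓞 M) M).symm
      rw [Ideal.relNorm_algebraMap, hfr, hdeg]
    have h4 : I.map (algebraMap (𝓞 F) (𝓞 M)) ≠ ⊥ := by
      intro h
      rw [h, Ideal.relNorm_bot] at h3
      exact pow_ne_zero _ hI0 h3.symm
    have h1 : I ^ p ⊔ 𝔪 = ⊤ := by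
      rw [← Ideal.isCoprime_iff_sup_eq] at *
      exact hIm.pow_left
    have h5 := hkill _ h4 (by rw [h3]; exact h1)
    rwa [h3] at h5
  -- towers
  have h13 : EH F M (r * r') (Theta F M (r * r') ψ hrm χ₁).ker ≤
      EH F M (r * r') ((Theta F M (r * r') ψ hrm χ₁).ker ⊓ (Theta F M (r * r') ψ hr'm χ₂).ker) :=
    IntermediateField.fixedField_le inf_le_left
  have h23 : EH F M (r * r') (Theta F M (r * r') ψ hr'm χ₂).ker ≤
      EH F M (r * r') ((Theta F M (r * r') ψ hrm χ₁).ker ⊓ (Theta F M (r * r') ψ hr'm χ₂).ker) :=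
    IntermediateField.fixedField_le inf_le_right
  let _ : Algebra (EH F M (r * r') (Theta F M (r * r') ψ hrm χ₁).ker)
      (EH F M (r * r') ((Theta F M (r * r') ψ hrm χ₁).ker ⊓ (Theta F M (r * r') ψ hr'm χ₂).ker)) :=
    (IntermediateField.inclusion h13).toRingHom.toAlgebra
  let _ : Algebra (EH F M (r * r') (Theta F M (r * r') ψ hr'm χ₂).ker)
      (EH F M (r * r') ((Theta F M (r * r') ψ hrm χ₁).ker ⊓ (Theta F M (r * r') ψ hr'm χ₂).ker)) :=
    (IntermediateField.inclusion h23).toRingHom.toAlgebra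
  have : IsScalarTower F (EH F M (r * r') (Theta F M (r * r') ψ hrm χ₁).ker)
      (EH F M (r * r') ((Theta F M (r * r') ψ hrm χ₁).ker ⊓ (Theta F M (r * r') ψ hr'm χ₂).ker)) :=
    IsScalarTower.of_algebraMap_eq (fun _ => rfl)
  have : IsScalarTower F (EH F M (r * r') (Theta F M (r * r') ψ hr'm χ₂).ker)
      (EH F M (r * r') ((Theta F M (r * r') ψ hrm χ₁).ker ⊓ (Theta F M (r * r') ψ hr'm χ₂).ker)) :=
    IsScalarTower.of_algebraMap_eq (fun _ => rfl)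
  have hfin := crossAbstractRay F
    (EH F M (r * r') ((Theta F M (r * r') ψ hrm χ₁).ker ⊓ (Theta F M (r * r') ψ hr'm χ₂).ker))
    (EH F M (r * r') (Theta F M (r * r') ψ hrm χ₁).ker)
    (EH F M (r * r') (Theta F M (r * r') ψ hr'm χ₂).ker)
    hp hkp hu 𝔪 cls hray.mul hexp χ₁ χ₂ ω₀ hω₀.pow_eq_one hχ₁ hχ₂ hE₁ hE₂ B₁ B₂ P₃ hP₃0 hB₁0 hB₂0
    hB₁n hB₂n (by rw [hB₁r]; exact hQm) (by rw [hB₂r]; exact hQ'm) hnr hn'r'
    (Nat.Coprime.coprime_dvd_right hrm hP₃m) (Nat.Coprime.coprime_dvd_right hr'm hP₃m)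
    hP₃𝔪 hχP₁ hχP₂
  rw [hB₁r, hB₂r] at hfin
  exact hfin

end Fermat.Agent.F4Rec
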