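import Fermat.Agent.F4.Recip.ArtinRay
import Fermat.Agent.F4.Recip.Compare
import Fermat.Agent.F4.Glob.FirstIneqRayMain

/-!
# F4/Recip: `ArtinRay` from `ERec`

`FirstIneqRay` is unconditional (`F4G.firstIneqRay`, helper86), `SplitNorm` too (helper32), and
`CompareRay` follows from `ERec` (`compareRay_of`).
-/

set_option autoImplicit false

namespace Fermat.Agent.F4Rec

/-- `CompareRayImp`, given `ERecImp`. -/
theorem compareRayImp_of (h : ERecImp) : CompareRayImp :=
  fun hSI => compareRay_of (h hSI coprimeNorm coprimeAbsNorm)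

/-- `ArtinRayImp`. -/
theorem artinRayImp : ArtinRayImp := fun hFI hC => artinRay_of hFI hC splitNorm

/-- **Artin reciprocity (ray form)** from the reciprocity statement `ERec` for the auxiliary
"cyclotomic" extensions. -/
theorem artinRay_of_eRec (h : ERec) : ArtinRay :=
  artinRay_of Fermat.Agent.F4G.firstIneqRay (compareRay_of h) splitNorm

/-- **Artin reciprocity (ray form)** from `ERecImp`. -/
theorem artinRay_of_eRecImp (h : ERecImp) : ArtinRay :=
  artinRay_of_eRec (h Fermat.Agent.F4Ray.secondIneqRay coprimeNorm coprimeAbsNorm)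

end Fermat.Agent.F4Rec
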