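import Fermat.Agent.F4.Recip.ERec
import Fermat.Agent.F4.Recip.ArtinRayOfERec

/-!
# F4 / GLOB reciprocity: Artin reciprocity in ray form, unconditional

`artinRay : ArtinRay` (distinct cyclic layers have distinct norm groups), from
`eRecImp` (piece RE), the first and second inequalities with modulus, and the crossing argument
(`artinRay_of_eRecImp`, helper14).
-/

set_option autoImplicit false

namespace Fermat.Agent.F4Rec

/-- `ERec`, unconditional. -/
theorem eRec : ERec :=
  eRecImp Fermat.Agent.F4Ray.secondIneqRay coprimeNorm coprimeAbsNorm

/-- **Artin reciprocity (ray form).** -/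
theorem artinRay : ArtinRay := artinRay_of_eRecImp eRecImp

end Fermat.Agent.F4Rec
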