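import Mathlib

/-
Ray-class norm congruences (seat RE / RayNorm, for `F4/Recip/ERec.lean`).

* `rn_intNorm_sub_one_mem` : `b ≡ 1 mod 𝔞𝓞_E  ⟹  N_{E/F}(b) ≡ 1 mod 𝔞`
  (product of conjugates in the integral closure inside an algebraic closure, which is
  faithfully flat over the Dedekind domain `𝓞 F`).
* `rn_chi_absNorm_span` : `b ≡ 1 mod r`, `χ` of odd `p`-power order mod `r` ⟹ `χ(N(b)) = 1`.
-/

open scoped NumberField

namespace Fermat.Agent.F4Rec

theorem rn_comap_map_integralClosure {A : Type*} [CommRing A] [IsDedekindDomain A]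
    (Ω : Type*) [Field Ω] [Algebra A Ω] [FaithfulSMul A Ω] (𝔞 : Ideal A) :
    (𝔞.map (algebraMap A (integralClosure A Ω))).comap (algebraMap A (integralClosure A Ω)) = 𝔞 := by
  have : Module.Flat A (integralClosure A Ω) := by
    rw [IsDedekindDomain.flat_iff_torsion_eq_bot, ← Submodule.isTorsionFree_iff_torsion_eq_bot]
    infer_instance
  exact Ideal.comap_map_eq_self_of_faithfullyFlat 𝔞

/-- a product of elements congruent to `1` is congruent to `1` -/
theorem rn_prod_sub_one_mem {R ι : Type*} [CommRing R] (I : Ideal R) (s : Finset ι) (f : ι → R)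
    (h : ∀ i ∈ s, f i - 1 ∈ I) : (∏ i ∈ s, f i) - 1 ∈ I := by
  rw [← Ideal.Quotient.eq_zero_iff_mem, map_sub, map_prod, map_one]
  rw [Finset.prod_eq_one, sub_self]
  intro i hi
  have := h i hi
  rw [← Ideal.Quotient.eq_zero_iff_mem, map_sub, map_one, sub_eq_zero] at this
  exact this

theorem rn_intNorm_sub_one_mem {F E : Type} [Field F] [NumberField F] [Field E] [NumberField E]
    [Algebra F E] (𝔞 : Ideal (𝓞 F)) (b : 𝓞 E)
    (hb : b - 1 ∈ 𝔞.map (algebraMap (𝓞 F) (𝓞 E))) :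
    Algebra.intNorm (𝓞 F) (𝓞 E) b - 1 ∈ 𝔞 := by
  classical
  let Ω := AlgebraicClosure E
  let C := integralClosure (𝓞 F) Ω
  -- the embeddings restricted to the rings of integers
  let ψ : (E →ₐ[F] Ω) → (𝓞 E →ₐ[𝓞 F] Ω) := fun σ =>
    (σ.restrictScalars (𝓞 F)).comp (IsScalarTower.toAlgHom (𝓞 F) (𝓞 E) E)
  have hint : ∀ (σ : E →ₐ[F] Ω) (x : 𝓞 E), ψ σ x ∈ C := by
    intro σ x
    exact (Algebra.IsIntegral.isIntegral (R := 𝓞 F) x).map (ψ σ)
  let φ : (E →ₐ[F] Ω) → (𝓞 E →ₐ[𝓞 F] C) := fun σ => (ψ σ).codRestrict C (hint σ)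
  have hφ : ∀ σ, φ σ b - 1 ∈ 𝔞.map (algebraMap (𝓞 F) C) := by
    intro σ
    have h1 : (𝔞.map (algebraMap (𝓞 F) (𝓞 E))).map (φ σ : 𝓞 E →+* C) =
        𝔞.map (algebraMap (𝓞 F) C) := by
      rw [Ideal.map_map]
      congr 1
      exact (φ σ).comp_algebraMap
    rw [← h1]
    have := Ideal.mem_map_of_mem (φ σ : 𝓞 E →+* C) hb
    simpa using this
  have hprod := rn_prod_sub_one_mem (𝔞.map (algebraMap (𝓞 F) C)) Finset.univ (fun σ => φ σ b)
    (fun σ _ => hφ σ)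
  have hN : algebraMap (𝓞 F) C (Algebra.intNorm (𝓞 F) (𝓞 E) b) = ∏ σ, φ σ b := by
    apply Subtype.ext
    have h2 := Algebra.norm_eq_prod_embeddings F Ω (algebraMap (𝓞 E) E b)
    have h3 := Algebra.algebraMap_intNorm (A := 𝓞 F) (K := F) (L := E) (B := 𝓞 E) b
    have h4 : ((∏ σ, φ σ b : C) : Ω) = ∏ σ : E →ₐ[F] Ω, σ (algebraMap (𝓞 E) E b) := by
      rw [← Subalgebra.coe_val, map_prod]
      rfl
    rw [h4, ← h2, ← h3]
    rw [← IsScalarTower.algebraMap_apply (𝓞 F) F Ω]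
    rfl
  rw [← rn_comap_map_integralClosure Ω 𝔞, Ideal.mem_comap, map_sub, map_one, hN]
  exact hprod

/-- `b ≡ 1 mod r` in a finite free `ℤ`-algebra implies `N(b) ≡ 1 mod r` -/
theorem rn_norm_int_sub_one {S : Type*} [CommRing S] [Module.Free ℤ S] [Module.Finite ℤ S]
    (r : ℤ) (b : S) (hb : b - 1 ∈ Ideal.span {(r : S)}) :
    r ∣ Algebra.norm ℤ b - 1 := by
  classical
  obtain ⟨c, hc⟩ := Ideal.mem_span_singleton'.mp hb
  have hb' : b = 1 + r • c := by
    rw [zsmul_eq_mul, mul_comm, hc]; ring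
  let bas := Module.Free.chooseBasis ℤ S
  rw [Algebra.norm_eq_matrix_det bas, hb', map_add, map_one, map_zsmul,
    Matrix.det_one_add_smul]
  generalize (Algebra.leftMulMatrix bas c).trace = t
  generalize Polynomial.eval r _ = e
  exact ⟨t + e * r, by ring⟩

theorem rn_chi_neg_one {p r : ℕ} (hp : p.Prime) (hp2 : p ≠ 2)
    (χ : DirichletCharacter ℂ r) (hχ : ∃ k : ℕ, χ ^ (p ^ k) = 1) : χ (-1) = 1 := by
  obtain ⟨k, hk⟩ := hχ
  have h2 : χ (-1) ^ 2 = 1 := by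
    rw [← map_pow]; simp
  have hpk : χ (-1) ^ (p ^ k) = 1 := by
    have := congrArg (fun ψ : DirichletCharacter ℂ r => ψ ((-1 : (ZMod r)ˣ) : ZMod r)) hk
    simp only [MulChar.pow_apply_coe, MulChar.one_apply_coe] at this
    simpa using this
  have hodd : Odd (p ^ k) := (hp.odd_of_ne_two hp2).pow
  obtain ⟨m, hm⟩ := hodd
  rw [hm, pow_succ, pow_mul, h2, one_pow, one_mul] at hpk
  exact hpk

theorem rn_chi_absNorm_span {E : Type} [Field E] [NumberField E] {p r : ℕ}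
    (hp : p.Prime) (hp2 : p ≠ 2) (hr : r.Prime)
    (χ : DirichletCharacter ℂ r) (hχ : ∃ k : ℕ, χ ^ (p ^ k) = 1) (b : 𝓞 E)
    (hb : b - 1 ∈ Ideal.span {(r : 𝓞 E)}) :
    χ ((Ideal.absNorm (Ideal.span {b}) : ℕ) : ZMod r) = 1 := by
  have _ := hr
  rw [Ideal.absNorm_span_singleton]
  have hdiv : (r : ℤ) ∣ Algebra.norm ℤ b - 1 := by
    apply rn_norm_int_sub_one
    simpa using hb
  have hN : ((Algebra.norm ℤ b : ℤ) : ZMod r) = 1 := by
    have := (ZMod.intCast_zmod_eq_zero_iff_dvd _ r).mpr hdiv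
    rw [Int.cast_sub, Int.cast_one, sub_eq_zero] at this
    exact this
  rcases Int.natAbs_eq (Algebra.norm ℤ b) with h | h
  · have : (((Algebra.norm ℤ b).natAbs : ℕ) : ZMod r) = 1 := by
      rw [← hN]; conv_rhs => rw [h]
      simp
    rw [this]; simp
  · have : (((Algebra.norm ℤ b).natAbs : ℕ) : ZMod r) = -1 := by
      rw [← hN]; conv_rhs => rw [h]
      simp
    rw [this]
    exact rn_chi_neg_one hp hp2 χ hχ

end Fermat.Agent.F4Rec
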