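import Fermat.Agent.F4.Kum.RayApprox
import Fermat.Agent.F4.Recip.RayNorm

/-!
# F4 / Recip / NormApprox : simultaneous approximation of local norms (seat ART, helper14)

`M/F` any extension of number fields (not necessarily Galois), `T` a finite set of primes of `F`.

* `normApprox` : **(NA)** if `f ∈ Fˣ` is, at every `v ∈ T`, a norm to precision `k`
  (`f ∈ F4G.localNormsAt F M T k`), then there is ONE `y ∈ Mˣ` with
  `f / N(y) ∈ U_v^{(k+1)}` for all `v ∈ T`.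

Proof: weak approximation in `M` at the primes above `T` (`F4G.exists_approx`), the integral
form of `U_w^{(K+1)}` (`F4Kum.rk2_exists_num_den`) and the continuity of the norm on integers
(`rn_intNorm_sub_one_mem`).
-/

set_option autoImplicit false

open NumberField IsDedekindDomain

namespace Fermat.Agent.F4Rec

open Fermat.Agent.S14SI Fermat.Agent.F4G

section

variable {F : Type} [Field F] [NumberField F]

/-- `a ≡ 1 mod v ^ (k + 1)` implies `a ∈ U_v^{(k+1)}`. -/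
theorem na_mem_oneMod (v : HeightOneSpectrum (𝓞 F)) (k : ℕ) {a : 𝓞 F} (ha : a ≠ 0)
    (h : a - 1 ∈ v.asIdeal ^ (k + 1)) :
    Units.mk0 (a : F) (by exact_mod_cast ha) ∈ oneModSubgroup F v k := by
  rw [mem_oneModSubgroup]
  have h2 : v.intValuation (a - 1) ≤ WithZero.exp (-((k + 1 : ℕ) : ℤ)) :=
    (v.intValuation_le_pow_iff_mem _ _).mpr h
  have h3 : v.valuation F ((a : F) - 1) = v.intValuation (a - 1) := by
    rw [← v.valuation_of_algebraMap (K := F)]
    congr 1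
  rw [Units.val_mk0, h3]
  refine lt_of_le_of_lt h2 ?_
  exact WithZero.exp_lt_exp.mpr (by push_cast; omega)

variable (M : Type) [Field M] [NumberField M] [Algebra F M]

/-- The primes of `M` above the prime `v` of `F`, as a finset. -/
noncomputable def naAbove (v : HeightOneSpectrum (𝓞 F)) : Finset (HeightOneSpectrum (𝓞 M)) :=
  Set.Finite.toFinset (s := {w | w.asIdeal.under (𝓞 F) = v.asIdeal}) (by
    have h : (v.asIdeal.primesOver (𝓞 M)).Finite :=
      IsDedekindDomain.primesOver_finite v.asIdeal (𝓞 M)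
    refine Set.Finite.of_finite_image (f := HeightOneSpectrum.asIdeal) (h.subset ?_)
      (fun _ _ _ _ h => HeightOneSpectrum.ext h)
    rintro _ ⟨w, hw, rfl⟩
    exact ⟨w.isPrime, ⟨(show w.asIdeal.under (𝓞 F) = v.asIdeal from hw).symm⟩⟩)

variable {M}

theorem mem_naAbove {v : HeightOneSpectrum (𝓞 F)} {w : HeightOneSpectrum (𝓞 M)} :
    w ∈ naAbove M v ↔ w.asIdeal.under (𝓞 F) = v.asIdeal := by
  unfold naAbove
  rw [Set.Finite.mem_toFinset]
  rfl

theorem naAbove_nonempty (v : HeightOneSpectrum (𝓞 F)) : (naAbove M v).Nonempty := by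
  have : v.asIdeal.IsMaximal := v.isMaximal
  obtain ⟨Q, hQmax, hQ⟩ :=
    Ideal.exists_maximal_ideal_liesOver_of_isIntegral (S := 𝓞 M) v.asIdeal
  have hQ0 : Q ≠ ⊥ := Ideal.ne_bot_of_liesOver_of_ne_bot v.ne_bot Q
  exact ⟨⟨Q, hQmax.isPrime, hQ0⟩, mem_naAbove.2 hQ.over.symm⟩

/-- A prime of `M` containing `v 𝓞_M` lies above `v`. -/
theorem na_mem_of_map_le (v : HeightOneSpectrum (𝓞 F)) (w : HeightOneSpectrum (𝓞 M))
    (h : v.asIdeal.map (algebraMap (𝓞 F) (𝓞 M)) ≤ w.asIdeal) : w ∈ naAbove M v := by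
  rw [mem_naAbove]
  have h1 : v.asIdeal ≤ w.asIdeal.under (𝓞 F) := Ideal.map_le_iff_le_comap.mp h
  have h2 : (w.asIdeal.under (𝓞 F)).IsPrime := Ideal.comap_isPrime _ _
  exact (v.isMaximal.eq_of_le h2.ne_top h1).symm

/-- A power of the product of the primes above `v` lies in `v 𝓞_M`. -/
theorem na_exists_pow_le (v : HeightOneSpectrum (𝓞 F)) :
    ∃ N : ℕ, (∏ w ∈ naAbove M v, w.asIdeal) ^ N ≤ v.asIdeal.map (algebraMap (𝓞 F) (𝓞 M)) := by
  have hI0 : v.asIdeal.map (algebraMap (𝓞 F) (𝓞 M)) ≠ ⊥ := by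
    rw [Ne, Ideal.map_eq_bot_iff_of_injective
      (FaithfulSMul.algebraMap_injective (𝓞 F) (𝓞 M))]
    exact v.ne_bot
  obtain ⟨N, hN⟩ := (v.asIdeal.map (algebraMap (𝓞 F) (𝓞 M))).exists_radical_pow_le_of_fg
    (IsNoetherian.noetherian _)
  have hrad : ∏ w ∈ naAbove M v, w.asIdeal ≤
      (v.asIdeal.map (algebraMap (𝓞 F) (𝓞 M))).radical := by
    rw [Ideal.radical_eq_sInf]
    refine le_sInf ?_
    rintro J ⟨hIJ, hJ⟩
    have hJ0 : J ≠ ⊥ := by
      rintro rfl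
      exact hI0 (le_bot_iff.mp hIJ)
    have hw := na_mem_of_map_le v (⟨J, hJ, hJ0⟩ : HeightOneSpectrum (𝓞 M)) hIJ
    exact le_trans Ideal.prod_le_inf
      (Finset.inf_le (f := fun w : HeightOneSpectrum (𝓞 M) => w.asIdeal) hw)
  exact ⟨N, le_trans (Ideal.pow_right_mono hrad N) hN⟩

/-- The norm of an element of `Mˣ` which is `≡ 1` to high precision at all primes above `v` is
`≡ 1` to precision `k` at `v`. -/
theorem na_norm_mem_oneMod (v : HeightOneSpectrum (𝓞 F)) (k : ℕ) :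
    ∃ K : ℕ, ∀ K' : ℕ, K ≤ K' → ∀ x : Mˣ, (∀ w ∈ naAbove M v, x ∈ oneModSubgroup M w K') →
      normUnits F M x ∈ oneModSubgroup F v k := by
  obtain ⟨N, hN⟩ := na_exists_pow_le (M := M) v
  refine ⟨N * (k + 1), fun K hK x hx => ?_⟩
  obtain ⟨n, d, hn0, hd0, hn, hd, hnd⟩ :=
    Fermat.Agent.F4Kum.rk2_exists_num_den (naAbove M v) (naAbove_nonempty v) K x hx
  have hle : ∏ w ∈ naAbove M v, w.asIdeal ^ (K + 1) ≤
      (v.asIdeal ^ (k + 1)).map (algebraMap (𝓞 F) (𝓞 M)) := by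
    rw [Finset.prod_pow, Ideal.map_pow]
    calc (∏ w ∈ naAbove M v, w.asIdeal) ^ (K + 1)
        ≤ (∏ w ∈ naAbove M v, w.asIdeal) ^ (N * (k + 1)) := Ideal.pow_le_pow_right (by omega)
      _ = ((∏ w ∈ naAbove M v, w.asIdeal) ^ N) ^ (k + 1) := pow_mul _ _ _
      _ ≤ _ := Ideal.pow_right_mono hN (k + 1)
  have hn1 : n - 1 ∈ (v.asIdeal ^ (k + 1)).map (algebraMap (𝓞 F) (𝓞 M)) :=
    hle (Fermat.Agent.F4Kum.rk2_mem_prod _ _ hn)
  have hd1 : d - 1 ∈ (v.asIdeal ^ (k + 1)).map (algebraMap (𝓞 F) (𝓞 M)) :=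
    hle (Fermat.Agent.F4Kum.rk2_mem_prod _ _ hd)
  have hNn := rn_intNorm_sub_one_mem (v.asIdeal ^ (k + 1)) n hn1
  have hNd := rn_intNorm_sub_one_mem (v.asIdeal ^ (k + 1)) d hd1
  have hNn0 : Algebra.intNorm (𝓞 F) (𝓞 M) n ≠ 0 := Algebra.intNorm_ne_zero.mpr hn0
  have hNd0 : Algebra.intNorm (𝓞 F) (𝓞 M) d ≠ 0 := Algebra.intNorm_ne_zero.mpr hd0
  have h1 := na_mem_oneMod v k hNn0 hNn
  have h2 := na_mem_oneMod v k hNd0 hNd
  have e : normUnits F M x =
      Units.mk0 ((Algebra.intNorm (𝓞 F) (𝓞 M) n : 𝓞 F) : F) (by exact_mod_cast hNn0) /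
        Units.mk0 ((Algebra.intNorm (𝓞 F) (𝓞 M) d : 𝓞 F) : F) (by exact_mod_cast hNd0) := by
    apply Units.ext
    rw [Units.val_div_eq_div_val, Units.val_mk0, Units.val_mk0]
    show Algebra.norm F (x : M) = _
    have hdM : ((d : 𝓞 M) : M) ≠ 0 := by exact_mod_cast hd0
    have hdF : ((Algebra.intNorm (𝓞 F) (𝓞 M) d : 𝓞 F) : F) ≠ 0 := by exact_mod_cast hNd0
    have hxd : (x : M) * (d : M) = (n : M) := by
      rw [hnd, div_mul_cancel₀ _ hdM]
    have e1 : ((Algebra.intNorm (𝓞 F) (𝓞 M) n : 𝓞 F) : F) = Algebra.norm F ((n : 𝓞 M) : M) :=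
      Algebra.algebraMap_intNorm (A := 𝓞 F) (K := F) (L := M) (B := 𝓞 M) n
    have e2 : ((Algebra.intNorm (𝓞 F) (𝓞 M) d : 𝓞 F) : F) = Algebra.norm F ((d : 𝓞 M) : M) :=
      Algebra.algebraMap_intNorm (A := 𝓞 F) (K := F) (L := M) (B := 𝓞 M) d
    rw [eq_div_iff hdF, e1, e2, ← map_mul, hxd]
  rw [e]
  exact (oneModSubgroup F v k).div_mem h1 h2

/-- **(NA) simultaneous approximation of local norms**: an element of `Fˣ` which is a norm to
precision `k` at every `v ∈ T` is, up to ONE global norm, `≡ 1` to precision `k` at all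
`v ∈ T`. -/
theorem normApprox (T : Finset (HeightOneSpectrum (𝓞 F))) (k : ℕ) (f : Fˣ)
    (hf : f ∈ localNormsAt F M T k) :
    ∃ y : Mˣ, ∀ v ∈ T, f / normUnits F M y ∈ oneModSubgroup F v k := by
  classical
  rw [mem_localNormsAt] at hf
  have hz : ∀ v : HeightOneSpectrum (𝓞 F), ∃ z : Mˣ,
      v ∈ T → f / normUnits F M z ∈ oneModSubgroup F v k := by
    intro v
    by_cases hv : v ∈ T
    · obtain ⟨z, hz⟩ := mem_localNormGroup.mp (hf v hv)
      exact ⟨z, fun _ => hz⟩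
    · exact ⟨1, fun h => absurd h hv⟩
  choose z hz using hz
  have hK := fun v : HeightOneSpectrum (𝓞 F) => na_norm_mem_oneMod (M := M) v k
  choose K hK using hK
  let below : HeightOneSpectrum (𝓞 M) → HeightOneSpectrum (𝓞 F) := fun w =>
    ⟨w.asIdeal.under (𝓞 F), inferInstance, Ideal.under_ne_bot (𝓞 F) w.ne_bot⟩
  obtain ⟨y, hy⟩ := exists_approx (T.biUnion (naAbove M)) (fun w => z (below w)) (∑ v ∈ T, K v)
  refine ⟨y, fun v hv => ?_⟩
  have hx : ∀ w ∈ naAbove M v, y / z v ∈ oneModSubgroup M w (∑ v ∈ T, K v) := by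
    intro w hw
    have h1 := hy w (Finset.mem_biUnion.mpr ⟨v, hv, hw⟩)
    have e : below w = v := HeightOneSpectrum.ext (mem_naAbove.1 hw)
    rw [e] at h1
    exact h1
  have h1 := hK v (∑ v ∈ T, K v)
    (Finset.single_le_sum (f := K) (fun _ _ => Nat.zero_le _) hv) (y / z v) hx
  have h2 := hz v hv
  have e : f / normUnits F M y = (f / normUnits F M (z v)) * (normUnits F M (y / z v))⁻¹ := by
    rw [map_div, inv_div, div_mul_div_cancel]
  rw [e]
  exact (oneModSubgroup F v k).mul_mem h2 ((oneModSubgroup F v k).inv_mem h1)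

end

end Fermat.Agent.F4Rec
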