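import Fermat.Agent.F4.Recip.ArtinMap
import Fermat.Agent.S14.SI.InertPrime
import Fermat.Agent.S14.Crossing.SplitPrimeEH

/-!
# F4/Recip: distinct cyclic layers are separated by a prime of degree one

`F ⊆ M ⊆ N ⊇ M' ⊇ F` number fields, `M'/F` Galois, `N/M` Galois of prime degree `p`, and `N` is
generated by `M'` over `M` (an automorphism of `N/M` which is trivial on `M'` is trivial); for
instance `M ≠ M'` two cyclic extensions of degree `p` of `F` and `N = M M'`.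
If `A` is a map on the ideals of `F` whose value at `Q' ∩ F` is a Frobenius element at `Q'` for the
primes `Q'` of `M'` (the Artin map of `M'/F`), there is a prime `Q` of `M` of degree one, outside
any finite set of primes, with `A (N_{M/F} Q) = A (Q ∩ F) ≠ 1`.
(Frobenius density for the cyclic extension `N/M`: `S14SI.inertPrimeExists`.)
-/

set_option autoImplicit false
set_option linter.unusedSectionVars false

open NumberField Polynomial IsDedekindDomain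
open scoped nonZeroDivisors IntermediateField Pointwise

namespace Fermat.Agent.F4Rec

open Fermat.Agent.S14 (InInertia)

/-- A prime ideal `Q` of prime absolute norm has relative norm `Q ∩ F`, of the same absolute
norm. -/
theorem di_relNorm_of_prime_absNorm {F M : Type} [Field F] [NumberField F] [Field M]
    [NumberField M] [Algebra F M] (Q : Ideal (𝓞 M)) (hQ : Q.IsPrime)
    (hq : (Ideal.absNorm Q).Prime) :
    Ideal.relNorm (𝓞 F) Q = Q.under (𝓞 F) ∧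
      Ideal.absNorm (Q.under (𝓞 F)) = Ideal.absNorm Q := by
  obtain ⟨s, hs⟩ := Ideal.exists_relNorm_eq_pow_of_isPrime Q (Q.under (𝓞 F))
  have h1 : Ideal.absNorm Q = Ideal.absNorm (Q.under (𝓞 F)) ^ s := by
    rw [← Ideal.absNorm_relNorm (R := 𝓞 F), hs, map_pow]
  obtain ⟨h2, h3⟩ := (Nat.Prime.pow_eq_iff hq).mp h1.symm
  rw [h3, pow_one] at hs
  exact ⟨hs, h2⟩

/-- A prime of `F` whose norm is a prime number not dividing the norms of the `v ∈ T` is prime to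
`∏_{v ∈ T} v`. -/
theorem di_sup_modT_eq_top {F : Type} [Field F] [NumberField F]
    (T : Finset (HeightOneSpectrum (𝓞 F))) (P : Ideal (𝓞 F)) (hP : P.IsPrime) (hP0 : P ≠ ⊥)
    (hq : (Ideal.absNorm P).Prime)
    (hT : ∀ v ∈ T, Ideal.absNorm P ∉ (Ideal.absNorm v.asIdeal).primeFactors) :
    P ⊔ modT T 1 = ⊤ := by
  by_contra hne
  have hPmax : P.IsMaximal := hP.isMaximal hP0
  have hle : modT T 1 ≤ P := by
    have h1 := hPmax.eq_of_le hne le_sup_left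
    rw [h1]
    exact le_sup_right
  unfold modT at hle
  obtain ⟨v, hv, hvP⟩ := (Ideal.IsPrime.prod_le hP).mp hle
  rw [pow_one] at hvP
  have hvmax : v.asIdeal.IsMaximal := v.isPrime.isMaximal v.ne_bot
  have hvP' : v.asIdeal = P := hvmax.eq_of_le hP.ne_top hvP
  apply hT v hv
  rw [hvP']
  exact Nat.mem_primeFactors.mpr ⟨hq, dvd_rfl, hq.ne_zero⟩

/-- **Distinct layers are separated by a prime of degree one.** -/
theorem distinct_prime {p : ℕ} {F M M' N : Type} [Field F] [NumberField F] [Field M]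
    [NumberField M] [Field M'] [NumberField M'] [Field N] [NumberField N]
    [Algebra F M] [Algebra F M'] [Algebra F N] [Algebra M N] [Algebra M' N]
    [IsScalarTower F M N] [IsScalarTower F M' N] [IsGalois F M'] [IsGalois M N]
    (hp : p.Prime) (hdegN : Module.finrank M N = p)
    (hgen : ∀ g : N ≃ₐ[M] N, (∀ y : M', g (algebraMap M' N y) = algebraMap M' N y) → g = 1)
    (T : Finset (HeightOneSpectrum (𝓞 F))) (hunr : UnramOutside F M' T) (B : Finset ℕ)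
    (A : Ideal (𝓞 F) → (M' ≃ₐ[F] M'))
    (hfrob : ∀ Q' : Ideal (𝓞 M'), Q'.IsPrime → Q' ≠ ⊥ →
      IsFrobRel (A (Q'.under (𝓞 F))) Q' (Ideal.absNorm (Q'.under (𝓞 F)))) :
    ∃ Q : Ideal (𝓞 M), Q.IsPrime ∧ Q ≠ ⊥ ∧ (Ideal.absNorm Q).Prime ∧ Ideal.absNorm Q ∉ B ∧
      Ideal.relNorm (𝓞 F) Q = Q.under (𝓞 F) ∧ Q.under (𝓞 F) ⊔ modT T 1 = ⊤ ∧
      A (Q.under (𝓞 F)) ≠ 1 := by
  classical
  obtain ⟨q, 𝔮, hq, hqB, hN, hf⟩ := Fermat.Agent.S14SI.inertPrimeExists p M N hp hdegN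
    (B ∪ T.biUnion fun v => (Ideal.absNorm v.asIdeal).primeFactors)
  have hqB1 : q ∉ B := fun h => hqB (Finset.mem_union_left _ h)
  have hqT : ∀ v ∈ T, q ∉ (Ideal.absNorm v.asIdeal).primeFactors := fun v hv h =>
    hqB (Finset.mem_union_right _ (Finset.mem_biUnion.mpr ⟨v, hv, h⟩))
  have h𝔮p : 𝔮.IsPrime := Ideal.isPrime_of_irreducible_absNorm (by rw [hN]; exact hq)
  have h𝔮0 : 𝔮 ≠ ⊥ := by
    rintro rfl
    rw [Ideal.absNorm_bot] at hN
    exact hq.ne_zero hN.symm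
  have hP : (𝔮.under (𝓞 F)).IsPrime := inferInstance
  have hP0 : 𝔮.under (𝓞 F) ≠ ⊥ := Ideal.under_ne_bot (𝓞 F) h𝔮0
  obtain ⟨hrel, hNP⟩ := di_relNorm_of_prime_absNorm (F := F) 𝔮 h𝔮p (hN ▸ hq)
  rw [hN] at hNP
  have hcop : 𝔮.under (𝓞 F) ⊔ modT T 1 = ⊤ :=
    di_sup_modT_eq_top T _ hP hP0 (hNP ▸ hq) (fun v hv => by rw [hNP]; exact hqT v hv)
  refine ⟨𝔮, h𝔮p, h𝔮0, hN ▸ hq, hN ▸ hqB1, hrel, hcop, fun hA => ?_⟩
  -- a prime of `N` above `𝔮` and its Frobenius element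
  have h𝔮max : 𝔮.IsMaximal := h𝔮p.isMaximal h𝔮0
  obtain ⟨𝔔, h𝔔max, h𝔔over⟩ :=
    Ideal.exists_maximal_ideal_liesOver_of_isIntegral (S := 𝓞 N) 𝔮
  have h𝔔p : 𝔔.IsPrime := h𝔔max.isPrime
  have h𝔔𝔮 : 𝔔.under (𝓞 M) = 𝔮 := h𝔔over.over.symm
  have h𝔔0 : 𝔔 ≠ ⊥ := Ideal.ne_bot_of_liesOver_of_ne_bot h𝔮0 𝔔
  obtain ⟨g, hg⟩ := ac_exists_frob (F := M) 𝔔 h𝔔p h𝔔0
  rw [h𝔔𝔮, hN] at hg
  -- its restriction to `M'`
  set τ' : M' ≃ₐ[F] M' := AlgEquiv.restrictNormalHom M' (g.restrictScalars F) with hτ'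
  have hτ'c : ∀ y : M', algebraMap M' N (τ' y) = g (algebraMap M' N y) := fun y =>
    AlgEquiv.restrictNormal_commutes (g.restrictScalars F) M' y
  set Q' : Ideal (𝓞 M') := 𝔔.under (𝓞 M') with hQ'
  have hQ'p : Q'.IsPrime := inferInstance
  have hQ'0 : Q' ≠ ⊥ := Ideal.under_ne_bot (𝓞 M') h𝔔0
  have hQ'P : Q'.under (𝓞 F) = 𝔮.under (𝓞 F) := by
    rw [hQ', Ideal.under_under, ← h𝔔𝔮, Ideal.under_under]
  have hτ'frob : IsFrobRel τ' Q' q := by
    rw [isFrobRel_iff_mem]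
    intro y
    rw [hQ', Ideal.under_def, Ideal.mem_comap]
    rw [isFrobRel_iff_mem] at hg
    have h1 := hg (algebraMap (𝓞 M') (𝓞 N) y)
    have e : algebraMap (𝓞 M') (𝓞 N) (τ' • y - y ^ q) =
        g • (algebraMap (𝓞 M') (𝓞 N) y) - (algebraMap (𝓞 M') (𝓞 N) y) ^ q := by
      apply RingOfIntegers.ext
      show algebraMap M' N (τ' (y : M') - (y : M') ^ q) = _
      rw [map_sub, map_pow, hτ'c]
      rfl
    rw [e]
    exact h1
  have hU : UnramAt F Q' :=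
    hunr Q' hQ'p hQ'0 (rg_ne_of_sup_eq_top le_rfl (hQ'P ▸ hP.ne_top) (hQ'P ▸ hcop))
  have hτ'1 : τ' = 1 := by
    have h2 := hfrob Q' hQ'p hQ'0
    rw [hQ'P, hNP, hA] at h2
    exact ac_frob_unique hU hτ'frob h2
  have hg1 : g = 1 := hgen g fun y => by
    rw [← hτ'c, hτ'1]
    rfl
  -- the residue degree of `𝔔` over `𝔮` is one
  have hpow : ∀ x : 𝓞 N, x ^ Ideal.absNorm (𝔔.under (𝓞 M)) - x ∈ 𝔔 := by
    intro x
    rw [isFrobRel_iff_mem] at hg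
    have h1 := hg x
    rw [hg1, one_smul] at h1
    rw [h𝔔𝔮, hN]
    have e : x ^ q - x = -(x - x ^ q) := by ring
    rw [e]
    exact 𝔔.neg_mem h1
  obtain ⟨-, h2⟩ := Fermat.Agent.S14.Cross.c11_relNorm_eq_under (E := M) 𝔔 h𝔔p h𝔔0 hpow
  rw [h𝔔𝔮] at h2
  have h3 := Ideal.absNorm_eq_pow_inertiaDeg'_of_liesOver 𝔔 𝔮 h𝔮p h𝔮0
  have h4 : 𝔮.inertiaDeg' 𝔔 = 𝔔.inertiaDeg (𝓞 M) := Ideal.inertiaDeg'_eq_inertiaDeg 𝔮 𝔔
  have h5 : 𝔮.inertiaDegIn (𝓞 N) = 𝔔.inertiaDeg (𝓞 M) :=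
    Ideal.inertiaDegIn_eq_inertiaDeg 𝔮 𝔔 Gal(N/M)
  rw [h4, ← h5, h2, hf, hN] at h3
  have h6 := Nat.pow_lt_pow_right hq.one_lt hp.one_lt
  rw [pow_one, ← h3] at h6
  exact lt_irrefl _ h6

end Fermat.Agent.F4Rec
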