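import Fermat.Agent.F4.Recip.ArtinMap
import Fermat.Agent.F4.Recip.Distinct
import Fermat.Agent.F4.Recip.Main

/-!
# F4/Recip: the Artin map, unconditionally

`artinMapExists : ArtinMapExists` (from `artinRay`), and the combination with `distinct_prime`.
-/

set_option autoImplicit false

open NumberField IsDedekindDomain

namespace Fermat.Agent.F4Rec

/-- **The Artin map** of a Galois extension of odd prime degree exists (unconditional). -/
theorem artinMapExists : ArtinMapExists := artinMapExists_of artinRay

end Fermat.Agent.F4Rec
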