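import Fermat.Agent.F4.Recip.Basic
import Fermat.Agent.S14.Crossing.Abstract

/-!
# F4/Recip: the class computation of the crossing argument (abstract form, with modulus)

`cls` a map on the ideals of `F`, multiplicative on the ideals prime to `𝔪`, with values in a group
of exponent `p`; two auxiliary fields `E₁`, `E₂` over `F` in which the ideals (prime to `𝔪 r_i`)
killed by `χ_i ∘ N` have norms killed by `cls`; a common overfield `E₃` carrying an ideal `P₃`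
with `χ₁(N P₃) = χ₂(N P₃) = ω ^ k`, `p ∤ k`.  Then for ideals `B_i` of `E_i` with
`χ₁(N B₁) = ω`, `χ₂(N B₂) = ω ^ u`: `cls (N_{E₂/F} B₂) = cls (N_{E₁/F} B₁) ^ u`.
-/

set_option autoImplicit false
set_option linter.unusedSectionVars false

open NumberField
open scoped nonZeroDivisors

namespace Fermat.Agent.F4Rec

section abstract

variable (F E₃ : Type) [Field F] [NumberField F] [Field E₃] [NumberField E₃] [Algebra F E₃]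

/-- One half of the crossing: `cls (N_{E/F} B) ^ k * cls (N_{E₃/F} P₃) ^ e = 1` as soon as `χ`
kills the norm of `B ^ k * N_{E₃/E}(P₃) ^ e`. -/
theorem cr_half {r n k e : ℕ}
    (E : Type) [Field E] [NumberField E] [Algebra F E] [Algebra E E₃] [IsScalarTower F E E₃]
    (𝔪 : Ideal (𝓞 F)) {G : Type} [CommGroup G] (cls : Ideal (𝓞 F) → G)
    (hmul : ∀ I J : Ideal (𝓞 F), I ⊔ 𝔪 = ⊤ → J ⊔ 𝔪 = ⊤ → cls (I * J) = cls I * cls J)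
    (χ : DirichletCharacter ℂ r)
    (hE : ∀ I : Ideal (𝓞 E), I ≠ ⊥ →
      I ⊔ (𝔪.map (algebraMap (𝓞 F) (𝓞 E)) * Ideal.span {(r : 𝓞 E)}) = ⊤ →
      χ ((Ideal.absNorm I : ℕ) : ZMod r) = 1 → cls (Ideal.relNorm (𝓞 F) I) = 1)
    (B : Ideal (𝓞 E)) (P₃ : Ideal (𝓞 E₃)) (hP₃ : P₃ ≠ ⊥) (hB0 : B ≠ ⊥)
    (hB : Ideal.absNorm B = n) (hBm : Ideal.relNorm (𝓞 F) B ⊔ 𝔪 = ⊤)
    (hn : n.Coprime r) (hP : (Ideal.absNorm P₃).Coprime r)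
    (hP𝔪 : (Ideal.absNorm P₃).Coprime (Ideal.absNorm 𝔪))
    (hχ : χ (n : ZMod r) ^ k * χ ((Ideal.absNorm P₃ : ℕ) : ZMod r) ^ e = 1) :
    cls (Ideal.relNorm (𝓞 F) B) ^ k * cls (Ideal.relNorm (𝓞 F) P₃) ^ e = 1 := by
  have hA₁0 : Ideal.relNorm (𝓞 E) P₃ ≠ ⊥ := by
    rw [Ne, Ideal.relNorm_eq_bot_iff]; exact hP₃
  have hI0 : B ^ k * Ideal.relNorm (𝓞 E) P₃ ^ e ≠ ⊥ :=
    mul_ne_zero (pow_ne_zero _ hB0) (pow_ne_zero _ hA₁0)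
  have hnorm : Ideal.absNorm (B ^ k * Ideal.relNorm (𝓞 E) P₃ ^ e) =
      n ^ k * Ideal.absNorm P₃ ^ e := by
    rw [map_mul, map_pow, map_pow, hB, Ideal.absNorm_relNorm]
  -- coprimality to the modulus
  have hB1 : B ⊔ (𝔪.map (algebraMap (𝓞 F) (𝓞 E)) * Ideal.span {(r : 𝓞 E)}) = ⊤ :=
    sup_mul_eq_top (sup_map_eq_top_of_relNorm hBm) (sup_span_eq_top_of_coprime (hB ▸ hn))
  have hA1 : Ideal.relNorm (𝓞 E) P₃ ⊔
      (𝔪.map (algebraMap (𝓞 F) (𝓞 E)) * Ideal.span {(r : 𝓞 E)}) = ⊤ := by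
    refine sup_mul_eq_top (sup_map_eq_top_of_absNorm_coprime ?_) (sup_span_eq_top_of_coprime ?_)
    · rw [Ideal.absNorm_relNorm]; exact hP𝔪
    · rw [Ideal.absNorm_relNorm]; exact hP
  have hI1 := pow_mul_pow_sup_eq_top hB1 hA1 k e
  have h1 := hE _ hI0 hI1 (by
    rw [hnorm, Nat.cast_mul, Nat.cast_pow, Nat.cast_pow, map_mul, map_pow, map_pow, hχ])
  have hA3 : Ideal.relNorm (𝓞 F) P₃ ⊔ 𝔪 = ⊤ := by
    apply sup_eq_top_of_absNorm_coprime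
    rw [Ideal.absNorm_relNorm]; exact hP𝔪
  rw [map_mul, map_pow, map_pow, Ideal.relNorm_relNorm, cls_pow_mul_pow hmul hBm hA3] at h1
  exact h1

variable (E₁ E₂ : Type) [Field E₁] [NumberField E₁] [Field E₂] [NumberField E₂]
  [Algebra F E₁] [Algebra F E₂] [Algebra E₁ E₃] [Algebra E₂ E₃]
  [IsScalarTower F E₁ E₃] [IsScalarTower F E₂ E₃]

/-- **Abstract crossing lemma with modulus.** -/
theorem crossAbstractRay {p r₁ r₂ n₁ n₂ u k : ℕ} (hp : p.Prime) (hk : ¬ p ∣ k) (hu : ¬ p ∣ u)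
    (𝔪 : Ideal (𝓞 F)) {G : Type} [CommGroup G] (cls : Ideal (𝓞 F) → G)
    (hmul : ∀ I J : Ideal (𝓞 F), I ⊔ 𝔪 = ⊤ → J ⊔ 𝔪 = ⊤ → cls (I * J) = cls I * cls J)
    (hexp : ∀ g : G, g ^ p = 1)
    (χ₁ : DirichletCharacter ℂ r₁) (χ₂ : DirichletCharacter ℂ r₂) (ω : ℂ) (hω : ω ^ p = 1)
    (hχ₁ : χ₁ (n₁ : ZMod r₁) = ω) (hχ₂ : χ₂ (n₂ : ZMod r₂) = ω ^ u)
    (hE₁ : ∀ I : Ideal (𝓞 E₁), I ≠ ⊥ →
      I ⊔ (𝔪.map (algebraMap (𝓞 F) (𝓞 E₁)) * Ideal.span {(r₁ : 𝓞 E₁)}) = ⊤ →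
      χ₁ ((Ideal.absNorm I : ℕ) : ZMod r₁) = 1 → cls (Ideal.relNorm (𝓞 F) I) = 1)
    (hE₂ : ∀ I : Ideal (𝓞 E₂), I ≠ ⊥ →
      I ⊔ (𝔪.map (algebraMap (𝓞 F) (𝓞 E₂)) * Ideal.span {(r₂ : 𝓞 E₂)}) = ⊤ →
      χ₂ ((Ideal.absNorm I : ℕ) : ZMod r₂) = 1 → cls (Ideal.relNorm (𝓞 F) I) = 1)
    (B₁ : Ideal (𝓞 E₁)) (B₂ : Ideal (𝓞 E₂)) (P₃ : Ideal (𝓞 E₃)) (hP₃ : P₃ ≠ ⊥)
    (hB₁0 : B₁ ≠ ⊥) (hB₂0 : B₂ ≠ ⊥)
    (hB₁ : Ideal.absNorm B₁ = n₁) (hB₂ : Ideal.absNorm B₂ = n₂)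
    (hB₁m : Ideal.relNorm (𝓞 F) B₁ ⊔ 𝔪 = ⊤) (hB₂m : Ideal.relNorm (𝓞 F) B₂ ⊔ 𝔪 = ⊤)
    (hn₁ : n₁.Coprime r₁) (hn₂ : n₂.Coprime r₂)
    (hP₁ : (Ideal.absNorm P₃).Coprime r₁) (hP₂ : (Ideal.absNorm P₃).Coprime r₂)
    (hP𝔪 : (Ideal.absNorm P₃).Coprime (Ideal.absNorm 𝔪))
    (hχP₁ : χ₁ ((Ideal.absNorm P₃ : ℕ) : ZMod r₁) = ω ^ k)
    (hχP₂ : χ₂ ((Ideal.absNorm P₃ : ℕ) : ZMod r₂) = ω ^ k) :
    cls (Ideal.relNorm (𝓞 F) B₂) = cls (Ideal.relNorm (𝓞 F) B₁) ^ u := by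
  have : Fact p.Prime := ⟨hp⟩
  -- the exponent `j` with `u * j ≡ k mod p`
  have hu0 : (u : ZMod p) ≠ 0 := by
    rwa [Ne, ZMod.natCast_eq_zero_iff]
  obtain ⟨j, hj⟩ : ∃ j : ℕ, u * j ≡ k [MOD p] := by
    refine ⟨((u : ZMod p)⁻¹ * (k : ZMod p)).val, ?_⟩
    rw [← ZMod.natCast_eq_natCast_iff, Nat.cast_mul, ZMod.natCast_val, ZMod.cast_id', id,
      ← mul_assoc, mul_inv_cancel₀ hu0, one_mul]
  obtain ⟨t, ht⟩ : ∃ t : ℕ, u * j + k * (p - 1) = p * t := by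
    have h1 : u * j + k * (p - 1) ≡ 0 [MOD p] := by
      have h2 : u * j + k * (p - 1) ≡ k + k * (p - 1) [MOD p] := Nat.ModEq.add_right _ hj
      have h3 : k + k * (p - 1) = p * k := by
        have := hp.one_le
        conv_lhs => rw [← mul_one k, mul_assoc, one_mul, ← mul_add, Nat.add_sub_cancel' this]
        exact mul_comm _ _
      rw [h3] at h2
      exact h2.trans ((Nat.modEq_zero_iff_dvd).mpr (dvd_mul_right p k))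
    exact (Nat.modEq_zero_iff_dvd).mp h1
  have h1 := cr_half F E₃ E₁ 𝔪 cls hmul χ₁ hE₁ B₁ P₃ hP₃ hB₁0 hB₁ hB₁m hn₁ hP₁ hP𝔪
    (k := k) (e := p - 1) (by
      rw [hχ₁, hχP₁, ← pow_mul, ← pow_add]
      have : k + k * (p - 1) = p * k := by
        have := hp.one_le
        conv_lhs => rw [← mul_one k, mul_assoc, one_mul, ← mul_add, Nat.add_sub_cancel' this]
        exact mul_comm _ _
      rw [this, pow_mul, hω, one_pow])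
  have h2 := cr_half F E₃ E₂ 𝔪 cls hmul χ₂ hE₂ B₂ P₃ hP₃ hB₂0 hB₂ hB₂m hn₂ hP₂ hP𝔪
    (k := j) (e := p - 1) (by
      rw [hχ₂, hχP₂, ← pow_mul, ← pow_mul, ← pow_add, ht, pow_mul, hω, one_pow])
  obtain ⟨c, hc, hcq⟩ := Fermat.Agent.S14.Cross.ca_group (⊥ : Subgroup G) hp
    (fun x => by rw [hexp x]; exact Subgroup.one_mem _) hk hj
    (by rw [h1]; exact Subgroup.one_mem _) (by rw [h2]; exact Subgroup.one_mem _)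
  rw [Subgroup.mem_bot] at hc
  rw [hcq, hc, mul_one]

end abstract

end Fermat.Agent.F4Rec
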