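import Fermat.Agent.F4.Recip.Statements
import Fermat.Agent.S14.Crossing.SplitPrimeEH

/-!
# F4 / GLOB reciprocity, piece RC : `CoprimeNorm`, `CoprimeAbsNorm`, `SplitNorm`

* `coprimeNorm` : an ideal of `E` prime to `𝔪 𝓞_E` has relative norm prime to `𝔪`;
* `coprimeAbsNorm` : an ideal of `E` prime to `(r)` has absolute norm prime to `r`;
* `splitNorm` : a prime `Q` of `M` with `x ^ N(Q ∩ F) ≡ x mod Q` has relative norm `Q ∩ F`.
-/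

set_option autoImplicit false

open NumberField

namespace Fermat.Agent.F4Rec

/-- If the relative norm of `I` lies in the maximal ideal `𝔭`, some prime of `E` above `𝔭`
contains `I`. -/
lemma rc_exists_prime_over {F E : Type} [Field F] [NumberField F] [Field E] [NumberField E]
    [Algebra F E] (𝔭 : Ideal (𝓞 F)) (h𝔭 : 𝔭.IsMaximal) (I : Ideal (𝓞 E))
    (hI : Ideal.relNorm (𝓞 F) I ≤ 𝔭) :
    ∃ 𝔓 : Ideal (𝓞 E), 𝔓.IsPrime ∧ I ≤ 𝔓 ∧ 𝔭.map (algebraMap (𝓞 F) (𝓞 E)) ≤ 𝔓 := by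
  induction I using UniqueFactorizationMonoid.induction_on_prime with
  | h₁ =>
    have := h𝔭
    obtain ⟨𝔓, h𝔓, hover⟩ := Ideal.exists_maximal_ideal_liesOver_of_isIntegral (S := 𝓞 E) 𝔭
    refine ⟨𝔓, h𝔓.isPrime, by simp, ?_⟩
    rw [Ideal.map_le_iff_le_comap]
    exact le_of_eq hover.over
  | h₂ J hJ =>
    exfalso
    rw [Ideal.isUnit_iff] at hJ
    rw [hJ, Ideal.relNorm_top] at hI
    exact h𝔭.ne_top (top_le_iff.1 hI)
  | h₃ J P hJ0 hP ih =>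
    rw [map_mul] at hI
    rcases h𝔭.isPrime.mul_le.1 hI with h | h
    · have hPprime : P.IsPrime := Ideal.isPrime_of_prime hP
      have hP0 : P ≠ ⊥ := hP.ne_zero
      have hover : P.LiesOver (P.under (𝓞 F)) := ⟨rfl⟩
      have hpprime : (P.under (𝓞 F)).IsPrime := inferInstance
      obtain ⟨s, hs⟩ := Ideal.exists_relNorm_eq_pow_of_isPrime P (P.under (𝓞 F))
      rw [hs] at h
      have hle : P.under (𝓞 F) ≤ 𝔭 := h𝔭.isPrime.le_of_pow_le h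
      have hp0 : P.under (𝓞 F) ≠ ⊥ := Ideal.under_ne_bot (𝓞 F) hP0
      have hmax : (P.under (𝓞 F)).IsMaximal := hpprime.isMaximal hp0
      have heq : P.under (𝓞 F) = 𝔭 := hmax.eq_of_le h𝔭.ne_top hle
      refine ⟨P, hPprime, Ideal.mul_le_left, ?_⟩
      rw [Ideal.map_le_iff_le_comap, ← heq]
    · obtain ⟨𝔓, h𝔓, hJ𝔓, h𝔭𝔓⟩ := ih h
      exact ⟨𝔓, h𝔓, le_trans Ideal.mul_le_right hJ𝔓, h𝔭𝔓⟩

/-- **(CN)** an ideal of `E` prime to `𝔪 𝓞_E` has relative norm prime to `𝔪`. -/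
theorem coprimeNorm : CoprimeNorm := by
  intro F E _ _ _ _ _ 𝔪 I hI
  by_contra hne
  obtain ⟨𝔭, h𝔭, hle⟩ := Ideal.exists_le_maximal _ hne
  obtain ⟨𝔓, h𝔓, hI𝔓, h𝔭𝔓⟩ := rc_exists_prime_over 𝔭 h𝔭 I (le_trans le_sup_left hle)
  have h𝔪 : 𝔪.map (algebraMap (𝓞 F) (𝓞 E)) ≤ 𝔓 :=
    le_trans (Ideal.map_mono (le_trans le_sup_right hle)) h𝔭𝔓
  have : (⊤ : Ideal (𝓞 E)) ≤ 𝔓 := hI ▸ sup_le hI𝔓 h𝔪
  exact h𝔓.ne_top (top_le_iff.1 this)

/-- **(CN')** an ideal of `E` prime to `(r)` has absolute norm prime to `r`. -/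
theorem coprimeAbsNorm : CoprimeAbsNorm := by
  intro E _ _ r I hI
  by_contra hne
  obtain ⟨ℓ, hℓ, hdvd⟩ := Nat.exists_prime_and_dvd hne
  have hℓI : ℓ ∣ Ideal.absNorm I := dvd_trans hdvd (Nat.gcd_dvd_left _ _)
  have hℓr : ℓ ∣ r := dvd_trans hdvd (Nat.gcd_dvd_right _ _)
  obtain ⟨P, hP, hPℓ, hPI⟩ := Ideal.exists_isMaximal_dvd_of_dvd_absNorm' hℓ I hℓI
  have hℓP : ((ℓ : ℤ) : 𝓞 E) ∈ P := by
    have h1 : (ℓ : ℤ) ∈ P.under ℤ := by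
      rw [hPℓ]
      exact Ideal.mem_span_singleton_self _
    exact h1
  have hrP : (r : 𝓞 E) ∈ P := by
    obtain ⟨k, rfl⟩ := hℓr
    have : ((ℓ * k : ℕ) : 𝓞 E) = ((ℓ : ℤ) : 𝓞 E) * (k : 𝓞 E) := by push_cast; rfl
    rw [this]
    exact P.mul_mem_right _ hℓP
  have hle : I ⊔ Ideal.span {(r : 𝓞 E)} ≤ P :=
    sup_le (Ideal.le_of_dvd hPI) ((Ideal.span_singleton_le_iff_mem P).2 hrP)
  rw [hI] at hle
  exact hP.ne_top (top_le_iff.1 hle)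

/-- **(SN)** split primes are norms. -/
theorem splitNorm : SplitNorm := by
  intro F M _ _ _ _ _ Q hQ hQ0 hfrob
  refine (Fermat.Agent.S14.Cross.c11_relNorm_eq_under (E := F) Q hQ hQ0 fun x => ?_).1
  obtain ⟨y, hy, hxy⟩ := hfrob x
  have h1 : x ^ Ideal.absNorm (Q.under (𝓞 F)) - x = -y := by
    apply RingOfIntegers.ext
    have h2 : ((1 : M ≃ₐ[F] M) (x : M)) = (x : M) := rfl
    rw [h2] at hxy
    rw [show ((x ^ Ideal.absNorm (Q.under (𝓞 F)) - x : 𝓞 M) : M)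
        = (x : M) ^ Ideal.absNorm (Q.under (𝓞 F)) - (x : M) from rfl,
      show ((-y : 𝓞 M) : M) = -(y : M) from rfl, ← hxy]
    ring
  rw [h1]
  exact Q.neg_mem hy

end Fermat.Agent.F4Rec
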