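import Fermat.Agent.F4.Recip.Statements

/-!
# F4/Recip (port of S14 crossing), piece R4 (U1a): `[M_H : E_H] = [M : K]` when `resM` maps `H` onto `Gal(M/K)`
-/

set_option autoImplicit false
set_option linter.unusedSectionVars false

open NumberField Polynomial
open scoped nonZeroDivisors IntermediateField

noncomputable section

namespace Fermat.Agent.F4Rec

open Fermat.Agent.S14 (InInertia)

variable (F M : Type) [Field F] [NumberField F] [Field M] [NumberField M] [Algebra F M]
  [IsGalois F M]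
variable (m : ℕ) [NeZero m] (H : Subgroup (Gam F M m))

/-- the homomorphism `Gal(Ω/E_H) → Gal(M/K)` whose kernel is `HL`. -/
def r4_hom : (Om M m ≃ₐ[EH F M m H] Om M m) →* (M ≃ₐ[F] M) :=
  (resM F M m).comp (AlgEquiv.restrictScalarsHom F)

theorem r4_hom_ker : (r4_hom F M m H).ker = HL F M m H := rfl

theorem r4_hom_surjective (hH : ∀ σ : M ≃ₐ[F] M, ∃ g ∈ H, resM F M m g = σ) :
    Function.Surjective (r4_hom F M m H) := by
  intro σ
  obtain ⟨g, hg, hgσ⟩ := hH σ
  have hgfix : g ∈ (EH F M m H).fixingSubgroup := by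
    rw [IntermediateField.mem_fixingSubgroup_iff]
    intro x hx
    exact (IntermediateField.mem_fixedField_iff H x).mp hx g hg
  refine ⟨IntermediateField.fixingSubgroupEquiv (EH F M m H) ⟨g, hgfix⟩, ?_⟩
  have : AlgEquiv.restrictScalarsHom F
      (IntermediateField.fixingSubgroupEquiv (EH F M m H) ⟨g, hgfix⟩) = g := by
    ext x
    rfl
  show resM F M m (AlgEquiv.restrictScalarsHom F _) = σ
  rw [this, hgσ]

/-- **(C4)** if `resM` maps `H` onto `Gal(M/K)` then `[M_H : E_H] = [M : K]`. -/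
theorem finrankEHMH : FinrankEHMH := by
  intro F M _ _ _ _ _ _ m _ H hH
  have h1 : Nat.card (MH F M m H ≃ₐ[EH F M m H] MH F M m H) =
      Module.finrank (EH F M m H) (MH F M m H) :=
    IsGalois.card_aut_eq_finrank (EH F M m H) (MH F M m H)
  have h2 : Nat.card (M ≃ₐ[F] M) = Module.finrank F M :=
    IsGalois.card_aut_eq_finrank F M
  rw [← h1, ← h2]
  have e1 : ((Om M m ≃ₐ[EH F M m H] Om M m) ⧸ HL F M m H) ≃*
      (MH F M m H ≃ₐ[EH F M m H] MH F M m H) :=
    IsGalois.normalAutEquivQuotient (HL F M m H)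
  have e2 : ((Om M m ≃ₐ[EH F M m H] Om M m) ⧸ (r4_hom F M m H).ker) ≃* (M ≃ₐ[F] M) :=
    QuotientGroup.quotientKerEquivOfSurjective _ (r4_hom_surjective F M m H hH)
  have c1 := Nat.card_congr e1.toEquiv
  have c2 := Nat.card_congr e2.toEquiv
  exact c1.symm.trans c2

end Fermat.Agent.F4Rec
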