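import Fermat.Agent.F4.Recip.Statements

/-!
# F4/Recip, piece R8: `ResFrob` (port of S14 C8 of helper13)
-/

set_option autoImplicit false

open NumberField Polynomial
open scoped nonZeroDivisors IntermediateField

namespace Fermat.Agent.F4Rec

open Fermat.Agent.S14 (InInertia)

section c8

variable {F M : Type} [Field F] [NumberField F] [Field M] [NumberField M] [Algebra F M]
  [IsGalois F M] {m : ℕ} [NeZero m]

/-- The Frobenius congruence for `g` on `Ω` gives the Frobenius congruence for `resM g`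
on `M`. -/
theorem r8_resM_frob {g : Gam F M m} {P : Ideal (𝓞 (Om M m))} {q : ℕ} (hg : IsFrobOm g P q)
    (x : 𝓞 M) : (resM F M m g) • x - x ^ q ∈ P.under (𝓞 M) := by
  obtain ⟨y, hy, hxy⟩ := hg (algebraMap (𝓞 M) (𝓞 (Om M m)) x)
  rw [Ideal.under_def, Ideal.mem_comap]
  have h1 : algebraMap (𝓞 M) (𝓞 (Om M m)) ((resM F M m g) • x - x ^ q) = y := by
    apply RingOfIntegers.ext
    rw [← hxy]
    show algebraMap M (Om M m) ((resM F M m g) (x : M) - (x : M) ^ q) = _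
    rw [map_sub, map_pow, resM_commutes]
    rfl
  rw [h1]
  exact hy

end c8

/-- **(C8)** `ResFrob`. -/
theorem resFrob : ResFrob := by
  intro F M _ _ _ _ _ _ m _ g P q τ hU hP hP0 hg hτ
  have hp : (P.under (𝓞 M)).IsPrime := inferInstance
  have hp0 : P.under (𝓞 M) ≠ ⊥ := Ideal.under_ne_bot (𝓞 M) hP0
  have hin : InInertia ((resM F M m g) * τ⁻¹) (P.under (𝓞 M)) := by
    intro x
    have h1 := r8_resM_frob hg (τ⁻¹ • x)
    obtain ⟨y, hy, hxy⟩ := hτ (τ⁻¹ • x)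
    refine ⟨(resM F M m g) • (τ⁻¹ • x) - (τ⁻¹ • x) ^ q - y, Ideal.sub_mem _ h1 hy, ?_⟩
    have h2 : τ ((τ⁻¹ • x : 𝓞 M) : M) = (x : M) := by
      show τ (τ⁻¹ (x : M)) = x
      rw [← AlgEquiv.mul_apply, mul_inv_cancel, AlgEquiv.one_apply]
    rw [h2] at hxy
    show (resM F M m g * τ⁻¹) (x : M) - (x : M) =
      (resM F M m g) (τ⁻¹ (x : M)) - (τ⁻¹ (x : M)) ^ q - (y : M)
    rw [← hxy, AlgEquiv.mul_apply]
    show _ = (resM F M m g) (τ⁻¹ (x : M)) - (τ⁻¹ (x : M)) ^ q - ((x : M) - (τ⁻¹ (x : M)) ^ q)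
    ring
  have h := hU _ hin
  exact mul_inv_eq_one.mp h

end Fermat.Agent.F4Rec
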