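import Fermat.Agent.F4.Recip.CycFrob
import Fermat.Agent.F4.Recip.ResFrob
import Fermat.Agent.S14.Crossing.SplitPrimeEH
import Fermat.Agent.S14.Crossing.CompareBasic

/-!
# F4/Recip, piece R11: `SplitPrimeEH` (port of S14 C11 of helper13)
-/

set_option autoImplicit false
set_option linter.unusedSectionVars false

open NumberField Polynomial
open scoped nonZeroDivisors IntermediateField

namespace Fermat.Agent.F4Rec

open Fermat.Agent.S14 (InInertia)

section r11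

variable {F M : Type} [Field F] [NumberField F] [Field M] [NumberField M] [Algebra F M]
  [IsGalois F M] {m : ℕ} [NeZero m]

/-- Existence of a Frobenius element in `Gal(Ω/F)` at a given prime `P` of `Ω`. -/
theorem r11_exists_frob_at (P : Ideal (𝓞 (Om M m))) (hP : P.IsPrime) (hP0 : P ≠ ⊥) :
    ∃ g : Gam F M m, IsFrobOm g P (Ideal.absNorm (P.under (𝓞 F))) := by
  have : Finite (𝓞 (Om M m) ⧸ P) := Ideal.finiteQuotientOfFreeOfNeBot P hP0
  obtain ⟨σ, hσ⟩ := IsArithFrobAt.exists_of_isInvariant (𝓞 F) (Gam F M m) P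
  refine ⟨σ, fun x => ?_⟩
  have h := hσ x
  have hcard : Nat.card (𝓞 F ⧸ P.under (𝓞 F)) = Ideal.absNorm (P.under (𝓞 F)) := by
    rw [Ideal.absNorm_apply, Submodule.cardQuot_apply]
  rw [hcard] at h
  exact ⟨_, h, rfl⟩

/-- An element of `H` fixes `E_H` pointwise. -/
theorem r11_fix_EH (H : Subgroup (Gam F M m)) {g : Gam F M m} (hgH : g ∈ H)
    (x : Om M m) (hx : x ∈ EH F M m H) : g x = x :=
  (IntermediateField.mem_fixedField_iff H x).mp hx g hgH

end r11

/-- **(R11)** `SplitPrimeEH`. -/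
theorem splitPrimeEH : SplitPrimeEH := by
  intro F M _ _ _ _ _ _ m _ H Q τ hQ hQ0 hU hcop hτ hH
  have hQmax : Q.IsMaximal := hQ.isMaximal hQ0
  -- a prime of `Ω` above `Q`
  obtain ⟨P, hPmax, hPover⟩ :=
    Ideal.exists_maximal_ideal_liesOver_of_isIntegral (S := 𝓞 (Om M m)) Q
  have hP : P.IsPrime := hPmax.isPrime
  have hPQ : P.under (𝓞 M) = Q := hPover.over.symm
  have hP0 : P ≠ ⊥ := Ideal.ne_bot_of_liesOver_of_ne_bot hQ0 P
  have hPK : P.under (𝓞 F) = Q.under (𝓞 F) := by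
    rw [← hPQ, Ideal.under_under]
  -- the Frobenius at `P`
  obtain ⟨g, hg⟩ := r11_exists_frob_at (F := F) P hP hP0
  rw [hPK] at hg
  have hres : resM F M m g = τ := by
    refine resFrob F M m g P _ τ ?_ hP hP0 hg ?_
    · rw [hPQ]; exact hU
    · rw [hPQ]; exact hτ
  have hq0 : Q.under (𝓞 F) ≠ ⊥ := Ideal.under_ne_bot (𝓞 F) hQ0
  have hqP : (Q.under (𝓞 F)).IsPrime := inferInstance
  have hmP : (m : 𝓞 (Om M m)) ∉ P := by
    intro hmP
    have h1 : ((Ideal.absNorm (Q.under (𝓞 F)) : ℕ) : 𝓞 (Om M m)) ∈ P := by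
      have h2 : ((Ideal.absNorm (Q.under (𝓞 F)) : ℕ) : 𝓞 F) ∈ P.under (𝓞 F) := by
        rw [hPK]
        exact Ideal.absNorm_mem _
      rw [Ideal.under_def, Ideal.mem_comap, map_natCast] at h2
      exact h2
    have h3 : ((Nat.gcd (Ideal.absNorm (Q.under (𝓞 F))) m : ℤ) : 𝓞 (Om M m)) ∈ P := by
      rw [Nat.gcd_eq_gcd_ab]
      push_cast
      exact P.add_mem (P.mul_mem_right _ h1) (P.mul_mem_right _ hmP)
    rw [hcop] at h3
    apply hP.ne_top
    rw [Ideal.eq_top_iff_one]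
    simpa using h3
  have hcyc' : ((cyc F M m g : (ZMod m)ˣ) : ZMod m) =
      ((Ideal.absNorm (Q.under (𝓞 F)) : ℕ) : ZMod m) := by
    have := cycFrob F M m g P (Ideal.absNorm (Q.under (𝓞 F))) m (dvd_refl m) hP hg hmP
    rwa [ZMod.unitsMap_self, MonoidHom.id_apply] at this
  have hgH : g ∈ H := hH g hres hcyc'
  -- the prime of `E_H` below `P`
  set B : Ideal (𝓞 (EH F M m H)) := P.under (𝓞 (EH F M m H)) with hBdef
  have hB : B.IsPrime := inferInstance
  have hB0 : B ≠ ⊥ := Ideal.under_ne_bot _ hP0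
  have hBK : B.under (𝓞 F) = Q.under (𝓞 F) := by
    rw [hBdef, Ideal.under_under, hPK]
  have hpow : ∀ x : 𝓞 (EH F M m H), x ^ Ideal.absNorm (B.under (𝓞 F)) - x ∈ B := by
    intro x
    rw [hBK, hBdef, Ideal.under_def, Ideal.mem_comap]
    obtain ⟨z, hz, hxz⟩ := hg (algebraMap (𝓞 (EH F M m H)) (𝓞 (Om M m)) x)
    have hfix : g ((algebraMap (𝓞 (EH F M m H)) (𝓞 (Om M m)) x : 𝓞 (Om M m)) : Om M m) =
        ((algebraMap (𝓞 (EH F M m H)) (𝓞 (Om M m)) x : 𝓞 (Om M m)) : Om M m) :=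
      r11_fix_EH H hgH _ (x : EH F M m H).2
    rw [hfix] at hxz
    have : algebraMap (𝓞 (EH F M m H)) (𝓞 (Om M m))
        (x ^ Ideal.absNorm (Q.under (𝓞 F)) - x) = -z := by
      apply RingOfIntegers.ext
      show _ = -(z : Om M m)
      rw [← hxz, map_sub, map_pow]
      simp
    rw [this]
    exact P.neg_mem hz
  obtain ⟨h1, h2⟩ := Fermat.Agent.S14.Cross.c11_relNorm_eq_under (E := F) B hB hB0 hpow
  refine ⟨B, hB, hB0, ?_, ?_⟩
  · rw [h2, hBK]
  · rw [h1, hBK]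

end Fermat.Agent.F4Rec
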