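import Fermat.Agent.F4.Recip.Basic
import Fermat.Agent.F4.Recip.FinrankEHMH
import Fermat.Agent.F4.Recip.ChiNormMH
import Fermat.Agent.F4.Recip.SplitPrimeEH
import Fermat.Agent.F4.Recip.CoprimeNorm

/-!
# F4/Recip: one auxiliary pair `(E, M')`, `E = Ω^(ker Θ)`, `M' = M · E`
-/

set_option autoImplicit false
set_option linter.unusedSectionVars false

open NumberField Polynomial
open scoped nonZeroDivisors IntermediateField

noncomputable section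

namespace Fermat.Agent.F4Rec

open Fermat.Agent.F4Ray (RayClassMap)

variable {F M : Type} [Field F] [NumberField F] [Field M] [NumberField M] [Algebra F M]
  [IsGalois F M] {m : ℕ} [NeZero m]

/-- `resM` maps `ker Θ` onto `Gal(M/F)`. -/
theorem resM_ker_theta_surj (ψ : (M ≃ₐ[F] M) →* ℂˣ) {d : ℕ} (hd : d ∣ m)
    (χ : DirichletCharacter ℂ d)
    (hsurj : ∀ (σ : M ≃ₐ[F] M) (a : (ZMod m)ˣ),
      ∃ g : Gam F M m, resM F M m g = σ ∧ cyc F M m g = a)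
    (him : ∀ σ : M ≃ₐ[F] M, ∃ a : (ZMod d)ˣ, χ (a : ZMod d) = ((ψ σ : ℂˣ) : ℂ))
    (σ : M ≃ₐ[F] M) : ∃ g ∈ (Theta F M m ψ hd χ).ker, resM F M m g = σ := by
  obtain ⟨a, ha⟩ := him σ
  obtain ⟨b, hb⟩ := ZMod.unitsMap_surjective hd a
  obtain ⟨g, hg1, hg2⟩ := hsurj σ b
  refine ⟨g, ?_, hg1⟩
  rw [mem_ker_theta_iff, hg2, hb, ha, hg1]

/-- One auxiliary pair: the reciprocity statement in `(E, M')` and the prime of degree one. -/
theorem cmp_half (hERec : ERec)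
    (p : ℕ) (r : ℕ) (hrm : r ∣ m) (ψ : (M ≃ₐ[F] M) →* ℂˣ) (χ : DirichletCharacter ℂ r)
    (hp : p.Prime) (hp2 : p ≠ 2) (hdeg : Module.finrank F M = p) (hr : r.Prime)
    (hsurj : ∀ (σ : M ≃ₐ[F] M) (a : (ZMod m)ˣ),
      ∃ g : Gam F M m, resM F M m g = σ ∧ cyc F M m g = a)
    (hχpow : ∃ k : ℕ, χ ^ (p ^ k) = 1)
    (him : ∀ σ : M ≃ₐ[F] M, ∃ a : (ZMod r)ˣ, χ (a : ZMod r) = ((ψ σ : ℂˣ) : ℂ))
    (𝔪 : Ideal (𝓞 F)) (G : Type) [CommGroup G] [Fintype G] (cls : Ideal (𝓞 F) → G)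
    (hray : RayClassMap F 𝔪 G cls) (hkill : KillsNorms F M 𝔪 cls)
    (Q : Ideal (𝓞 M)) (τ : M ≃ₐ[F] M) (hQ : Q.IsPrime) (hQ0 : Q ≠ ⊥) (hU : UnramAt F Q)
    (hQm : Q.under (𝓞 F) ⊔ 𝔪 = ⊤) (hnm : (Ideal.absNorm (Q.under (𝓞 F))).Coprime m)
    (hF : IsFrobRel τ Q (Ideal.absNorm (Q.under (𝓞 F))))
    (hχn : χ ((Ideal.absNorm (Q.under (𝓞 F)) : ℕ) : ZMod r) = ((ψ τ : ℂˣ) : ℂ))
    (hχn1 : χ ((Ideal.absNorm (Q.under (𝓞 F)) : ℕ) : ZMod r) ≠ 1) :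
    (∀ I : Ideal (𝓞 (EH F M m (Theta F M m ψ hrm χ).ker)), I ≠ ⊥ →
      I ⊔ (𝔪.map (algebraMap (𝓞 F) (𝓞 (EH F M m (Theta F M m ψ hrm χ).ker))) *
        Ideal.span {(r : 𝓞 (EH F M m (Theta F M m ψ hrm χ).ker))}) = ⊤ →
      χ ((Ideal.absNorm I : ℕ) : ZMod r) = 1 → cls (Ideal.relNorm (𝓞 F) I) = 1) ∧
    ∃ B : Ideal (𝓞 (EH F M m (Theta F M m ψ hrm χ).ker)), B.IsPrime ∧ B ≠ ⊥ ∧
      Ideal.absNorm B = Ideal.absNorm (Q.under (𝓞 F)) ∧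
      Ideal.relNorm (𝓞 F) B = Q.under (𝓞 F) := by
  have hsH := resM_ker_theta_surj ψ hrm χ hsurj him
  -- the prime of degree one
  obtain ⟨B, hBp, hB0, hBn, hBr⟩ := splitPrimeEH F M m (Theta F M m ψ hrm χ).ker Q τ hQ hQ0 hU
    hnm hF (by
      intro g hg1 hg2
      rw [mem_ker_theta_iff, hg1, ← hχn, ZMod.unitsMap_val, hg2, ZMod.cast_natCast hrm])
  refine ⟨?_, B, hBp, hB0, hBn, hBr⟩
  refine hERec p r F (EH F M m (Theta F M m ψ hrm χ).ker) (MH F M m (Theta F M m ψ hrm χ).ker)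
    𝔪 G cls χ hp hp2 hr ?_ hray hχpow ?_ ?_
  · rw [finrankEHMH F M m _ hsH, hdeg]
  · intro A hA0 hAm
    constructor
    · have e : Ideal.relNorm (𝓞 F)
          (Ideal.relNorm (𝓞 (EH F M m (Theta F M m ψ hrm χ).ker)) A) =
          Ideal.relNorm (𝓞 F) (Ideal.relNorm (𝓞 M) A) := by
        rw [Ideal.relNorm_relNorm, Ideal.relNorm_relNorm]
      have hcop := coprimeNorm F (EH F M m (Theta F M m ψ hrm χ).ker) 𝔪 _
        (sup_eq_top_of_sup_mul_left hAm)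
      rw [e] at hcop ⊢
      refine hkill _ ?_ hcop
      rw [Ne, Ideal.relNorm_eq_bot_iff]
      exact hA0
    · refine chiNormMH F M m _ ψ r hrm χ le_rfl A ?_
      have := coprimeAbsNorm (EH F M m (Theta F M m ψ hrm χ).ker) r _
        (sup_eq_top_of_sup_mul_right hAm)
      rwa [Ideal.absNorm_relNorm] at this
  · refine ⟨B, hB0, sup_mul_eq_top (sup_map_eq_top_of_relNorm ?_)
      (sup_span_eq_top_of_coprime ?_), ?_⟩
    · rw [hBr]; exact hQm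
    · rw [hBn]; exact Nat.Coprime.coprime_dvd_right hrm hnm
    · rw [hBn]; exact hχn1

end Fermat.Agent.F4Rec
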