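import Fermat.Agent.F4.Recip.ERecCore
import Fermat.Agent.F4.Recip.RayNorm

/-!
# F4 / GLOB reciprocity, piece RE: `ERecImp`

`ERec` from the second inequality with modulus `𝔪𝓞_E · (r)`, applied to the (finite) group of
values of `I ↦ (cls (N_{E/F} I), χ (N I))` on the ideals prime to the modulus.
-/

set_option autoImplicit false
set_option linter.unusedSectionVars false
set_option linter.style.haveILetI false

open NumberField

noncomputable section

namespace Fermat.Agent.F4Rec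

open Fermat.Agent.F4Ray (RayClassMap SecondIneqRay)

section

variable {F : Type} (E : Type) [Field F] [NumberField F] [Field E] [NumberField E] [Algebra F E]
  {G : Type} [CommGroup G] {r : ℕ}

/-- the modulus `𝔪𝓞_E · (r)` -/
def reMod (𝔪 : Ideal (𝓞 F)) (r : ℕ) : Ideal (𝓞 E) :=
  𝔪.map (algebraMap (𝓞 F) (𝓞 E)) * Ideal.span {(r : 𝓞 E)}

variable {E}

/-- the value `(cls (N_{E/F} I), χ (N I))` -/
def reVal (cls : Ideal (𝓞 F) → G) (χ : DirichletCharacter ℂ r) (I : Ideal (𝓞 E)) :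
    G × χ.toUnitHom.range :=
  (cls (Ideal.relNorm (𝓞 F) I), χ.toUnitHom.rangeRestrict (reUnit r (Ideal.absNorm I)))

theorem re_snd_eq_one_iff (cls : Ideal (𝓞 F) → G) (χ : DirichletCharacter ℂ r)
    {I : Ideal (𝓞 E)} (hcop : (Ideal.absNorm I).Coprime r) :
    (reVal cls χ I).2 = 1 ↔ χ ((Ideal.absNorm I : ℕ) : ZMod r) = 1 := by
  rw [reVal, Subtype.ext_iff, MonoidHom.coe_rangeRestrict, Units.ext_iff, MulChar.coe_toUnitHom,
    reUnit_coe hcop]
  rfl

theorem re_mod_ne_bot {𝔪 : Ideal (𝓞 F)} (h𝔪 : 𝔪 ≠ ⊥) (hr : r ≠ 0) : reMod E 𝔪 r ≠ ⊥ := by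
  rw [reMod]
  apply mul_ne_zero
  · rw [Ideal.zero_eq_bot, Ne, Ideal.map_eq_bot_iff_of_injective
      (FaithfulSMul.algebraMap_injective (𝓞 F) (𝓞 E))]
    exact h𝔪
  · rw [Ideal.zero_eq_bot, Ne, Ideal.span_singleton_eq_bot]
    exact_mod_cast hr

theorem re_mod_le_left (𝔪 : Ideal (𝓞 F)) (r : ℕ) :
    reMod E 𝔪 r ≤ 𝔪.map (algebraMap (𝓞 F) (𝓞 E)) := by
  unfold reMod
  exact Ideal.mul_le_left

theorem re_mod_le_right (𝔪 : Ideal (𝓞 F)) (r : ℕ) :
    reMod E 𝔪 r ≤ Ideal.span {(r : 𝓞 E)} := by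
  unfold reMod
  exact Ideal.mul_le_right

theorem re_coprime_left {𝔪 : Ideal (𝓞 F)} {I : Ideal (𝓞 E)} (hCN : CoprimeNorm)
    (h : I ⊔ reMod E 𝔪 r = ⊤) : Ideal.relNorm (𝓞 F) I ⊔ 𝔪 = ⊤ :=
  hCN F E 𝔪 I (sup_eq_top_of_sup_mul_left h)

theorem re_coprime_right {𝔪 : Ideal (𝓞 F)} {I : Ideal (𝓞 E)} (hCA : CoprimeAbsNorm)
    (h : I ⊔ reMod E 𝔪 r = ⊤) : (Ideal.absNorm I).Coprime r :=
  hCA E r I (sup_eq_top_of_sup_mul_right h)

theorem re_ne_bot {𝔪 : Ideal (𝓞 F)} {I : Ideal (𝓞 E)} (hCA : CoprimeAbsNorm) (hr : r.Prime)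
    (h : I ⊔ reMod E 𝔪 r = ⊤) : I ≠ ⊥ := by
  rintro rfl
  have := re_coprime_right hCA h
  rw [Ideal.absNorm_bot, Nat.coprime_zero_left] at this
  exact hr.one_lt.ne' this

theorem re_mul_coprime {𝔪 : Ideal (𝓞 F)} {I J : Ideal (𝓞 E)}
    (hI : I ⊔ reMod E 𝔪 r = ⊤) (hJ : J ⊔ reMod E 𝔪 r = ⊤) : I * J ⊔ reMod E 𝔪 r = ⊤ := by
  rw [sup_comm] at hI hJ ⊢
  exact sup_mul_eq_top hI hJ

theorem re_val_mul {𝔪 : Ideal (𝓞 F)} {cls : Ideal (𝓞 F) → G} (χ : DirichletCharacter ℂ r)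
    (hCN : CoprimeNorm) (hCA : CoprimeAbsNorm) (hcls : RayClassMap F 𝔪 G cls)
    {I J : Ideal (𝓞 E)} (hI : I ⊔ reMod E 𝔪 r = ⊤) (hJ : J ⊔ reMod E 𝔪 r = ⊤) :
    reVal cls χ (I * J) = reVal cls χ I * reVal cls χ J := by
  rw [reVal, reVal, reVal, Prod.mk_mul_mk, map_mul, map_mul,
    hcls.mul _ _ (re_coprime_left hCN hI) (re_coprime_left hCN hJ),
    reUnit_mul (re_coprime_right hCA hI) (re_coprime_right hCA hJ), map_mul]

theorem re_val_top {cls : Ideal (𝓞 F) → G} {𝔪 : Ideal (𝓞 F)} (χ : DirichletCharacter ℂ r)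
    (hcls : RayClassMap F 𝔪 G cls) : reVal cls χ (⊤ : Ideal (𝓞 E)) = 1 := by
  rw [reVal, Ideal.relNorm_top, cls_top hcls.mul, Ideal.absNorm_top, reUnit_one, map_one]
  rfl

/-- the group of values of `reVal` on the ideals prime to the modulus -/
def reV {𝔪 : Ideal (𝓞 F)} {cls : Ideal (𝓞 F) → G} (χ : DirichletCharacter ℂ r)
    (hCN : CoprimeNorm) (hCA : CoprimeAbsNorm) (hcls : RayClassMap F 𝔪 G cls)
    [Finite G] : Subgroup (G × χ.toUnitHom.range) where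
  carrier := {h | ∃ I : Ideal (𝓞 E), I ⊔ reMod E 𝔪 r = ⊤ ∧ reVal cls χ I = h}
  mul_mem' := by
    rintro _ _ ⟨I, hI, rfl⟩ ⟨J, hJ, rfl⟩
    exact ⟨I * J, re_mul_coprime hI hJ, re_val_mul χ hCN hCA hcls hI hJ⟩
  one_mem' := ⟨⊤, by simp, re_val_top χ hcls⟩
  inv_mem' := by
    rintro _ ⟨I, hI, rfl⟩
    haveI : Finite χ.toUnitHom.range :=
      Finite.of_surjective χ.toUnitHom.rangeRestrict χ.toUnitHom.rangeRestrict_surjective
    have hpow : ∀ n : ℕ, I ^ n ⊔ reMod E 𝔪 r = ⊤ ∧ reVal cls χ (I ^ n) = reVal cls χ I ^ n := by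
      intro n
      induction n with
      | zero =>
        rw [pow_zero, pow_zero, Ideal.one_eq_top]
        exact ⟨by simp, re_val_top χ hcls⟩
      | succ n ih =>
        rw [pow_succ, pow_succ]
        exact ⟨re_mul_coprime ih.1 hI, by rw [re_val_mul χ hCN hCA hcls ih.1 hI, ih.2]⟩
    refine ⟨I ^ (Nat.card (G × χ.toUnitHom.range) - 1), (hpow _).1, ?_⟩
    rw [(hpow _).2]
    apply eq_inv_of_mul_eq_one_left
    rw [← pow_succ, Nat.sub_add_cancel Nat.card_pos]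
    exact pow_card_eq_one'

end

/-- **(X2)** `ERec` from the second inequality with modulus. -/
theorem eRecImp : ERecImp := by
  intro hSI hCN hCA p r F E M' _ _ _ _ _ _ _ _ _ 𝔪 G _ _ cls χ hp hp2 hr hdeg hcls hχ hb hc I hI
    hIcop hχI
  classical
  haveI : Finite χ.toUnitHom.range :=
    Finite.of_surjective χ.toUnitHom.rangeRestrict χ.toUnitHom.rangeRestrict_surjective
  let V : Subgroup (G × χ.toUnitHom.range) := reV (E := E) χ hCN hCA hcls
  letI : Fintype V := Fintype.ofFinite V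
  -- the class map with values in `V`
  let Cls : Ideal (𝓞 E) → V := fun J =>
    if h : J ⊔ reMod E 𝔪 r = ⊤ then ⟨reVal cls χ J, J, h, rfl⟩ else 1
  have hCls : ∀ J (h : J ⊔ reMod E 𝔪 r = ⊤), Cls J = ⟨reVal cls χ J, J, h, rfl⟩ :=
    fun J h => dif_pos h
  have hRay : RayClassMap E (reMod E 𝔪 r) V Cls :=
    { m_ne_bot := re_mod_ne_bot hcls.m_ne_bot hr.ne_zero
      mul := by
        intro I J hI hJ
        rw [hCls _ (re_mul_coprime hI hJ), hCls _ hI, hCls _ hJ]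
        apply Subtype.ext
        exact re_val_mul χ hCN hCA hcls hI hJ
      ray := by
        intro a ha ha1
        have hcop : Ideal.span {a} ⊔ reMod E 𝔪 r = ⊤ := by
          rw [Ideal.eq_top_iff_one]
          have h1 : (1 : 𝓞 E) = a + (-(a - 1)) := by ring
          rw [h1]
          exact Submodule.add_mem_sup (Ideal.subset_span rfl) (neg_mem ha1)
        rw [hCls _ hcop]
        apply Subtype.ext
        show reVal cls χ (Ideal.span {a}) = 1
        apply Prod.ext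
        · show cls (Ideal.relNorm (𝓞 F) (Ideal.span {a})) = 1
          rw [Ideal.relNorm_singleton]
          apply hcls.ray
          · exact Algebra.intNorm_ne_zero.mpr ha
          · exact rn_intNorm_sub_one_mem 𝔪 a (re_mod_le_left 𝔪 r ha1)
        · show (reVal cls χ (Ideal.span {a})).2 = 1
          rw [re_snd_eq_one_iff cls χ (re_coprime_right hCA hcop)]
          exact rn_chi_absNorm_span hp hp2 hr χ hχ a (re_mod_le_right 𝔪 r ha1)
      surj := by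
        rintro ⟨_, J, hJ, rfl⟩
        exact ⟨J, re_ne_bot hCA hr hJ, hJ, hCls J hJ⟩ }
  have hnorm : ∀ A : Ideal (𝓞 M'), A ≠ ⊥ → Ideal.relNorm (𝓞 E) A ⊔ reMod E 𝔪 r = ⊤ →
      Cls (Ideal.relNorm (𝓞 E) A) = 1 := by
    intro A hA hAcop
    rw [hCls _ hAcop]
    apply Subtype.ext
    obtain ⟨h1, h2⟩ := hb A hA hAcop
    apply Prod.ext
    · exact h1
    · show (reVal cls χ (Ideal.relNorm (𝓞 E) A)).2 = 1
      rw [re_snd_eq_one_iff cls χ (re_coprime_right hCA hAcop), Ideal.absNorm_relNorm]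
      exact h2
  have hcard := hSI E M' (reMod E 𝔪 r) V Cls hRay hnorm
  rw [hdeg, ← Nat.card_eq_fintype_card] at hcard
  -- counting
  obtain ⟨I₀, hI₀, hI₀cop, hI₀χ⟩ := hc
  obtain ⟨k, hk⟩ := hχ
  let π : V →* χ.toUnitHom.range := (MonoidHom.snd _ _).comp V.subtype
  have hπ : ∀ J (h : J ⊔ reMod E 𝔪 r = ⊤), π (Cls J) = (reVal cls χ J).2 := by
    intro J h
    rw [hCls J h]
    rfl
  have h1 : π (Cls I₀) ≠ 1 := by
    rw [hπ _ hI₀cop, Ne, re_snd_eq_one_iff cls χ (re_coprime_right hCA hI₀cop)]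
    exact hI₀χ
  have hk' : π (Cls I₀) ^ (p ^ k) = 1 := by
    obtain ⟨u, hu⟩ := χ.toUnitHom.rangeRestrict_surjective (π (Cls I₀))
    have hu_pow : χ.toUnitHom u ^ (p ^ k) = 1 := by
      apply Units.ext
      rw [Units.val_pow_eq_pow_val, MulChar.coe_toUnitHom, ← MulChar.pow_apply_coe, hk,
        MulChar.one_apply_coe]
      rfl
    rw [← hu, ← map_pow]
    apply Subtype.ext
    rw [MonoidHom.coe_rangeRestrict, map_pow, hu_pow]
    rfl
  have hw : π (Cls I) = 1 := by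
    rw [hπ _ hIcop, re_snd_eq_one_iff cls χ (re_coprime_right hCA hIcop)]
    exact hχI
  have hfin := re_ker_trivial hp hcard π (Cls I₀) k h1 hk' (Cls I) hw
  rw [hCls _ hIcop] at hfin
  have := congrArg (fun v : V => (v : G × χ.toUnitHom.range).1) hfin
  exact this

end Fermat.Agent.F4Rec
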