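import Fermat.Agent.F4.Recip.Statements
import Fermat.Agent.F4.Recip.Basic

/-!
# F4 / GLOB reciprocity, piece RE (part 1): the counting argument

`ERec` is deduced from the second inequality with modulus `𝔪𝓞_E · (r)` applied to the group of
values of `I ↦ (cls (N_{E/F} I), χ (N I))`; the two congruence inputs on norms of elements
`≡ 1` modulo the modulus are in `RayNorm.lean` (helper48).  This file: the group-theoretic
counting lemma and the unit of `ZMod r` attached to a natural number.
-/

set_option autoImplicit false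
set_option linter.style.haveILetI false

open NumberField

noncomputable section

namespace Fermat.Agent.F4Rec

open Fermat.Agent.F4Ray (RayClassMap SecondIneqRay)

/-! ### group theory -/

/-- A finite group of order `≤ p` admitting a homomorphism with a non-trivial value of `p`-power
order: the homomorphism is injective. -/
theorem re_ker_trivial {V A : Type*} [Group V] [Finite V] [Group A] {p : ℕ} (hp : p.Prime)
    (hcard : Nat.card V ≤ p) (π : V →* A) (z₀ : V) (k : ℕ) (h1 : π z₀ ≠ 1)
    (hk : π z₀ ^ (p ^ k) = 1) (w : V) (hw : π w = 1) : w = 1 := by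
  haveI : Fact p.Prime := ⟨hp⟩
  -- the order of `π z₀` is a non-trivial power of `p`
  obtain ⟨i, hi, hord⟩ := (Nat.dvd_prime_pow hp).mp (orderOf_dvd_of_pow_eq_one hk)
  have hi0 : i ≠ 0 := by
    rintro rfl
    rw [pow_zero, orderOf_eq_one_iff] at hord
    exact h1 hord
  have hpdvd : p ∣ orderOf (π z₀) := by
    rw [hord]; exact dvd_pow_self p hi0
  have hdvd1 : orderOf (π z₀) ∣ orderOf z₀ := orderOf_map_dvd π z₀
  have hdvd2 : orderOf z₀ ∣ Nat.card V := orderOf_dvd_natCard z₀
  have hpos : 0 < Nat.card V := Nat.card_pos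
  have hcardeq : Nat.card V = p :=
    le_antisymm hcard (Nat.le_of_dvd hpos (hpdvd.trans (hdvd1.trans hdvd2)))
  have hordp : orderOf (π z₀) = p := by
    have h2 : orderOf (π z₀) ∣ p := hcardeq ▸ hdvd1.trans hdvd2
    exact Nat.dvd_antisymm h2 hpdvd
  have hz0 : z₀ ≠ 1 := by
    rintro rfl
    exact h1 (map_one π)
  have htop : Subgroup.zpowers z₀ = ⊤ := zpowers_eq_top_of_prime_card hcardeq hz0
  have hwmem : w ∈ Subgroup.zpowers z₀ := htop ▸ Subgroup.mem_top w
  obtain ⟨j, rfl⟩ := Subgroup.mem_zpowers_iff.mp hwmem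
  rw [map_zpow] at hw
  have hj : (p : ℤ) ∣ j := by
    have := orderOf_dvd_iff_zpow_eq_one.mpr hw
    rwa [hordp] at this
  obtain ⟨c, rfl⟩ := hj
  have hzp : z₀ ^ p = 1 := by
    rw [← hcardeq]; exact pow_card_eq_one'
  rw [zpow_mul, zpow_natCast, hzp, one_zpow]

/-! ### the unit of `ZMod r` attached to a natural number -/

/-- the unit `n mod r` (`1` if `n` is not prime to `r`). -/
def reUnit (r n : ℕ) : (ZMod r)ˣ :=
  if h : n.Coprime r then ZMod.unitOfCoprime n h else 1

theorem reUnit_coe {r n : ℕ} (h : n.Coprime r) : ((reUnit r n : (ZMod r)ˣ) : ZMod r) = n := by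
  rw [reUnit, dif_pos h, ZMod.coe_unitOfCoprime]

theorem reUnit_mul {r a b : ℕ} (ha : a.Coprime r) (hb : b.Coprime r) :
    reUnit r (a * b) = reUnit r a * reUnit r b := by
  apply Units.ext
  rw [Units.val_mul, reUnit_coe ha, reUnit_coe hb, reUnit_coe (Nat.Coprime.mul_left ha hb),
    Nat.cast_mul]

theorem reUnit_one (r : ℕ) : reUnit r 1 = 1 := by
  apply Units.ext
  rw [reUnit_coe (Nat.coprime_one_left r), Nat.cast_one, Units.val_one]

end Fermat.Agent.F4Rec
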