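import Fermat.Agent.F4.Recip.Statements

set_option autoImplicit false

open NumberField Polynomial
open scoped nonZeroDivisors IntermediateField

noncomputable section

namespace Fermat.Agent.F4Rec

open Fermat.Agent.S14 (InInertia)

/-- an element of `Gal(Ω/K)` fixing `M` pointwise and `ζ_m` is trivial. -/
theorem r1_eq_one_of_fix {F M : Type} [Field F] [NumberField F] [Field M] [NumberField M] [Algebra F M]
  [IsGalois F M] {m : ℕ}
    [NeZero m] (g : Gam F M m) (hL : ∀ x : M, g (algebraMap M (Om M m) x) = algebraMap M (Om M m) x)
    (hz : g (zetaOm M m) = zetaOm M m) : g = 1 := by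
  -- the `M`-algebra endomorphism induced by `g`
  let g' : Om M m →ₐ[M] Om M m :=
    { (g : Om M m →+* Om M m) with
      commutes' := hL }
  have hadj : Algebra.adjoin M {zetaOm M m} = ⊤ :=
    IsCyclotomicExtension.adjoin_primitive_root_eq_top (zetaOm_spec M m)
  have h1 : g' = AlgHom.id M (Om M m) := by
    apply AlgHom.ext_of_adjoin_eq_top hadj
    intro x hx
    rw [Set.mem_singleton_iff] at hx
    subst hx
    exact hz
  ext x
  have := DFunLike.congr_fun h1 x
  exact this

theorem gamExt : GamExt := by
  intro F M _ _ _ _ _ _ m _ g hres hcyc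
  apply r1_eq_one_of_fix g
  · intro x
    have := resM_commutes F M m g x
    rw [hres] at this
    exact this.symm
  · have := cyc_spec F M m g
    rw [hcyc] at this
    rw [this]
    have h1 : ((1 : (ZMod m)ˣ) : ZMod m).val = 1 % m := by
      rw [Units.val_one]
      exact ZMod.val_one_eq_one_mod m
    rw [h1]
    rcases Nat.lt_or_ge 1 m with h | h
    · rw [Nat.mod_eq_of_lt h, pow_one]
    · have hm : m = 1 := by
        have := NeZero.pos m
        omega
      have hz : zetaOm M m = 1 := by
        have h2 := (zetaOm_spec M m).pow_eq_one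
        have h3 : zetaOm M m ^ m = zetaOm M m ^ 1 := by
          congr 1
        rw [h3, pow_one] at h2
        exact h2
      rw [hz, one_pow]

end Fermat.Agent.F4Rec
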