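import Fermat.Agent.S14.CrossingInterface
import Fermat.Agent.F4.Ray.Defs

/-!
# F4 / GLOB reciprocity: crossing with cyclotomic fields over a general base — set-up

Owner: helper14.  Generalises `S14/Crossing/Setup.lean` (base `ℚ(ζ_p)`, no modulus) to an
arbitrary Galois extension `M/F` of number fields.

* `Om M m = M(ζ_m)` (`CyclotomicField m M`), Galois over `F`;
* `Gam F M m = Gal(Ω/F)`, `resM : Gam → Gal(M/F)`, `cyc : Gam → (ℤ/m)ˣ`;
* for a subgroup `H ≤ Gam`: `EH = Ω^H` (an intermediate field of `Ω/F`) and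
  `MH = Ω^(H ∩ ker resM) = M · EH` (an intermediate field of `Ω/EH`), with its `M`-algebra
  structure;
* for a character `ψ` of `Gal(M/F)` and a Dirichlet character `χ` mod `d ∣ m`:
  `Theta = (ψ ∘ resM) * (χ ∘ cyc)⁻¹ : Gam → ℂˣ`.
-/

set_option autoImplicit false
set_option linter.unusedSectionVars false

open NumberField Polynomial
open scoped nonZeroDivisors IntermediateField

noncomputable section

namespace Fermat.Agent.F4Rec

variable (F M : Type) [Field F] [NumberField F] [Field M] [NumberField M] [Algebra F M]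
  [IsGalois F M]
variable (m : ℕ) [NeZero m]

/-- The big field `Ω = M(ζ_m)`. -/
abbrev Om : Type := CyclotomicField m M

instance isGalois_M_Om : IsGalois M (Om M m) := IsCyclotomicExtension.isGalois {m} M (Om M m)

theorem isGalois_F_Om : IsGalois F (Om M m) := by
  obtain ⟨f, hfsep, hf⟩ := IsGalois.is_separable_splitting_field F M
  have hf0 : f ≠ 0 := hfsep.ne_zero
  have hg0 : (X ^ m - 1 : F[X]) ≠ 0 := by
    have := X_pow_sub_C_ne_zero (NeZero.pos m) (1 : F)
    simpa using this
  have h1 : IsSplittingField M (Om M m) ((X ^ m - 1 : F[X]).map (algebraMap F M)) := by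
    have := IsCyclotomicExtension.isSplittingField_X_pow_sub_one m M (Om M m)
    simpa using this
  have h2 := IsSplittingField.mul (F := F) (K := M) (L := Om M m) f (X ^ m - 1) hf0 hg0
  have : Normal F (Om M m) := Normal.of_isSplittingField (f * (X ^ m - 1))
  exact ⟨⟩

instance isGalois_F_Om' : IsGalois F (Om M m) := isGalois_F_Om F M m

/-- `Γ = Gal(Ω/F)`. -/
abbrev Gam : Type := Om M m ≃ₐ[F] Om M m

/-- Restriction `Gal(Ω/F) → Gal(M/F)`. -/
def resM : Gam F M m →* (M ≃ₐ[F] M) := AlgEquiv.restrictNormalHom M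

theorem resM_commutes (g : Gam F M m) (x : M) :
    algebraMap M (Om M m) (resM F M m g x) = g (algebraMap M (Om M m) x) :=
  AlgEquiv.restrictNormal_commutes g M x

/-- The distinguished primitive `m`-th root of unity of `Ω`. -/
def zetaOm : Om M m := IsCyclotomicExtension.zeta m M (Om M m)

theorem zetaOm_spec : IsPrimitiveRoot (zetaOm M m) m :=
  IsCyclotomicExtension.zeta_spec m M (Om M m)

/-- The cyclotomic character `Gal(Ω/F) → (ℤ/m)ˣ`: `g ζ_m = ζ_m ^ (cyc g)`. -/
def cyc : Gam F M m →* (ZMod m)ˣ := IsPrimitiveRoot.autToPow F (zetaOm_spec M m)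

theorem cyc_spec (g : Gam F M m) :
    g (zetaOm M m) = zetaOm M m ^ ((cyc F M m g : ZMod m).val) := by
  have := IsPrimitiveRoot.autToPow_spec F (zetaOm_spec M m) g
  exact this.symm

/-- The twisting character `Θ = (ψ ∘ resM) * (χ ∘ cyc)⁻¹` attached to a character `ψ` of
`Gal(M/F)` and a Dirichlet character `χ` modulo a divisor `d` of `m`. -/
def Theta (ψ : (M ≃ₐ[F] M) →* ℂˣ) {d : ℕ} (hd : d ∣ m) (χ : DirichletCharacter ℂ d) :
    Gam F M m →* ℂˣ :=
  (ψ.comp (resM F M m)) * ((χ.toUnitHom.comp ((ZMod.unitsMap hd).comp (cyc F M m))))⁻¹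

section fields

variable (H : Subgroup (Gam F M m))

/-- `E_H = Ω^H`. -/
abbrev EH : IntermediateField F (Om M m) := IntermediateField.fixedField H

/-- The elements of `Gal(Ω/E_H)` acting trivially on `M`. -/
def HL : Subgroup (Om M m ≃ₐ[EH F M m H] Om M m) :=
  ((resM F M m).comp (AlgEquiv.restrictScalarsHom F)).ker

instance : (HL F M m H).Normal := by
  unfold HL
  infer_instance

/-- `M_H = Ω^(H ∩ ker resM) = M · E_H`, as an intermediate field of `Ω/E_H`. -/
abbrev MH : IntermediateField (EH F M m H) (Om M m) := IntermediateField.fixedField (HL F M m H)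

instance isGalois_EH_MH : IsGalois (EH F M m H) (MH F M m H) :=
  IsGalois.of_fixedField_normal_subgroup (HL F M m H)

theorem algebraMap_mem_MH (x : M) : algebraMap M (Om M m) x ∈ MH F M m H := by
  rw [IntermediateField.mem_fixedField_iff]
  intro g hg
  have hg' : resM F M m (AlgEquiv.restrictScalarsHom F g) = 1 := hg
  have := resM_commutes F M m (AlgEquiv.restrictScalarsHom F g) x
  rw [hg'] at this
  exact this.symm

/-- The embedding `M → M_H`. -/
def algLM : M →+* MH F M m H :=
  (algebraMap M (Om M m)).codRestrict (MH F M m H).toSubfield.toSubring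
    (fun x => algebraMap_mem_MH F M m H x)

instance algebra_M_MH : Algebra M (MH F M m H) := (algLM F M m H).toAlgebra

theorem algebraMap_M_MH_coe (x : M) :
    ((algebraMap M (MH F M m H) x : MH F M m H) : Om M m) = algebraMap M (Om M m) x := rfl

instance isScalarTower_F_M_MH : IsScalarTower F M (MH F M m H) := by
  refine IsScalarTower.of_algebraMap_eq (fun x => ?_)
  apply Subtype.ext
  rw [algebraMap_M_MH_coe]
  rfl

instance isScalarTower_M_MH_Om : IsScalarTower M (MH F M m H) (Om M m) :=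
  IsScalarTower.of_algebraMap_eq (fun _ => rfl)

end fields

/-- `g ∈ Gal(Ω/F)` is a Frobenius element at the prime `P` of `𝓞 Ω` for residue cardinality `q`:
`g x ≡ x ^ q mod P`. -/
def IsFrobOm {F M : Type} [Field F] [NumberField F] [Field M] [NumberField M] [Algebra F M]
    [IsGalois F M] {m : ℕ} [NeZero m]
    (g : Gam F M m) (P : Ideal (𝓞 (Om M m))) (q : ℕ) : Prop :=
  ∀ x : 𝓞 (Om M m), ∃ y ∈ P, g (x : Om M m) - (x : Om M m) ^ q = (y : Om M m)

/-- `τ ∈ Gal(M/F)` is a Frobenius element at the prime `Q` of `𝓞 M` for residue cardinality `q`: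
`τ x ≡ x ^ q mod Q`. -/
def IsFrobRel {F M : Type} [Field F] [Field M] [NumberField M] [Algebra F M]
    (τ : M ≃ₐ[F] M) (Q : Ideal (𝓞 M)) (q : ℕ) : Prop :=
  ∀ x : 𝓞 M, ∃ y ∈ Q, τ (x : M) - (x : M) ^ q = (y : M)

/-- `M/F` is unramified at the prime `Q` of `M`: the inertia group of `Q` is trivial. -/
def UnramAt (F : Type) {M : Type} [Field F] [Field M] [NumberField M] [Algebra F M]
    (Q : Ideal (𝓞 M)) : Prop :=
  ∀ σ : M ≃ₐ[F] M, Fermat.Agent.S14.InInertia σ Q → σ = 1

end Fermat.Agent.F4Rec
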